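import Fermat.Agent.CarayolReduction.NormComm
import Fermat.Agent.Hecke.Finite

/-!
# Pushforward and pullback of divisors commute in a linearly disjoint square

For morphisms of function fields over an algebraically closed field of characteristic zero.
-/

set_option autoImplicit false

noncomputable section

open AlgebraicCurve

namespace Fermat.Agent.CarayolReduction

variable {K F F' E E' : Type*} [Field K] [IsAlgClosed K] [CharZero K]
  [Field F] [Field F'] [Field E] [Field E']
  [Algebra K F] [Algebra K F'] [Algebra K E] [Algebra K E']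
  [FunctionField.IsFunctionField K F] [FunctionField.IsFunctionField K F']
  [FunctionField.IsFunctionField K E] [FunctionField.IsFunctionField K E']

omit [IsAlgClosed K] [CharZero K] [FunctionField.IsFunctionField K F]
  [FunctionField.IsFunctionField K F'] [FunctionField.IsFunctionField K E'] in
/-- Restriction of places is transitive. -/
theorem restrictAlong_comp {φ : F →ₐ[K] F'} {g' : F' →ₐ[K] E'} (θ : F →ₐ[K] E')
    (hφ : φ.toRingHom.IsIntegral) (hg' : g'.toRingHom.IsIntegral) (hθ : θ.toRingHom.IsIntegral)
    (h : ∀ x, θ x = g' (φ x)) (u : Place K E') :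
    (u.restrictAlong g' hg').restrictAlong φ hφ = u.restrictAlong θ hθ :=
  Place.ext <| SetLike.ext fun x => by
    show g' (φ x) ∈ u.toValuationSubring ↔ θ x ∈ u.toValuationSubring
    rw [h]

theorem inertiaDegAlong_eq_one (φ : F →ₐ[K] F') (hφ : φ.toRingHom.IsIntegral) (w : Place K F') :
    w.inertiaDegAlong φ hφ = 1 := by
  let := algebraAlong φ
  have := isScalarTower_along φ
  have := isIntegral_along φ hφ
  have : Module.Finite F F' := Hecke.finiteAlong_of_isFunctionField φ
  exact Hecke.inertiaDeg_eq_one w

/-- The pushforward of `n w` is `n` times the place below `w`. -/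
theorem pushforwardAlong_single' (φ : F →ₐ[K] F') (hφ : φ.toRingHom.IsIntegral) (w : Place K F')
    (n : ℤ) :
    Divisor.pushforwardAlong φ hφ (Finsupp.single w n) =
      Finsupp.single (w.restrictAlong φ hφ) n := by
  rw [Divisor.pushforwardAlong_single, inertiaDegAlong_eq_one, Nat.cast_one, mul_one]

/-- Pushforward is functorial. -/
theorem pushforwardAlong_comp {φ : F →ₐ[K] F'} {g' : F' →ₐ[K] E'} (θ : F →ₐ[K] E')
    (hφ : φ.toRingHom.IsIntegral) (hg' : g'.toRingHom.IsIntegral) (hθ : θ.toRingHom.IsIntegral)
    (h : ∀ x, θ x = g' (φ x)) (D : Divisor K E') :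
    Divisor.pushforwardAlong φ hφ (Divisor.pushforwardAlong g' hg' D) =
      Divisor.pushforwardAlong θ hθ D := by
  induction D using Finsupp.induction with
  | zero => simp
  | single_add u n D _ _ ih =>
    rw [map_add, map_add, map_add, ih]
    simp only [pushforwardAlong_single', restrictAlong_comp θ hφ hg' hθ h]

omit [IsAlgClosed K] [CharZero K] [FunctionField.IsFunctionField K F]
  [FunctionField.IsFunctionField K F'] in
theorem pushforwardAlong_apply_eq_zero (φ : F →ₐ[K] F') (hφ : φ.toRingHom.IsIntegral)
    (D : Divisor K F') (v : Place K F)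
    (h : ∀ w : Place K F', w.restrictAlong φ hφ = v → D w = 0) :
    Divisor.pushforwardAlong φ hφ D v = 0 := by
  classical
  let := algebraAlong φ
  have := isScalarTower_along φ
  have := isIntegral_along φ hφ
  show Divisor.pushforward F D v = 0
  rw [Divisor.pushforward_apply]
  exact Finset.sum_eq_zero fun w _ => by
    split_ifs with hw
    · rw [h w hw, zero_mul]
    · rfl

/-- The pushforward of the divisor of a function is the divisor of its norm. -/
theorem pushforwardAlong_div (φ : F →ₐ[K] F') (hφ : φ.toRingHom.IsIntegral) {f : F'} (hf : f ≠ 0)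
    {D : Divisor K F'} (hD : ∀ w, D w = w.ord f) (v : Place K F) :
    Divisor.pushforwardAlong φ hφ D v = v.ord (nmAlong φ f) := by
  let := algebraAlong φ
  have := isScalarTower_along φ
  have := isIntegral_along φ hφ
  have : Module.Finite F F' := Hecke.finiteAlong_of_isFunctionField φ
  exact Hecke.pushforwardNormFormula f hf D hD v

omit [IsAlgClosed K] [CharZero K] [FunctionField.IsFunctionField K F]
  [FunctionField.IsFunctionField K F'] in
/-- The pullback of the divisor of `f` is the divisor of its image. -/
theorem pullbackAlong_div [HasPrincipalDivisors K F'] (φ : F →ₐ[K] F')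
    (hφ : φ.toRingHom.IsIntegral) {f : F} {D : Divisor K F} (hD : ∀ w, D w = w.ord f)
    (v : Place K F') : Divisor.pullbackAlong φ hφ D v = v.ord (φ f) := by
  rw [Divisor.pullbackAlong_apply, hD, ← Place.ord_restrictAlong]

omit [IsAlgClosed K] [CharZero K] in
/-- A function of order `1` at `w₀` and `0` at the other places over `v`. -/
theorem exists_fiber_uniformizerAlong (φ : F →ₐ[K] F') (hφ : φ.toRingHom.IsIntegral)
    [HasPrincipalDivisors K F'] (v : Place K F) (w₀ : Place K F')
    (hw₀ : w₀.restrictAlong φ hφ = v) :
    ∃ f : F', f ≠ 0 ∧ w₀.ord f = 1 ∧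
      ∀ w : Place K F', w.restrictAlong φ hφ = v → w ≠ w₀ → w.ord f = 0 := by
  classical
  let := algebraAlong φ
  have := isScalarTower_along φ
  have := isIntegral_along φ hφ
  have : Module.Finite F F' := Hecke.finiteAlong_of_isFunctionField φ
  obtain ⟨f, hf, h⟩ := Hecke.exists_fiber_uniformizer (L := F') v w₀
  exact ⟨f, hf, (h w₀ hw₀).trans (if_pos rfl), fun w hw hne => (h w hw).trans (if_neg hne)⟩

/-- **Base change.** Pushforward along `φ` and pullback along `g` commute. -/
theorem pushforwardAlong_pullbackAlong (φ : F →ₐ[K] F') (ψ : E →ₐ[K] E') (g : F →ₐ[K] E)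
    (g' : F' →ₐ[K] E') [HasPrincipalDivisors K F'] [HasPrincipalDivisors K E]
    [HasPrincipalDivisors K E']
    (hsq : ∀ x, g' (φ x) = ψ (g x))
    (hdeg : finrankAlong K φ = finrankAlong K ψ)
    (hgen : IntermediateField.adjoin K (Set.range g' ∪ Set.range ψ) = ⊤)
    (hφ : φ.toRingHom.IsIntegral) (hψ : ψ.toRingHom.IsIntegral)
    (hg : g.toRingHom.IsIntegral) (hg' : g'.toRingHom.IsIntegral) (D : Divisor K F') :
    Divisor.pushforwardAlong ψ hψ (Divisor.pullbackAlong g' hg' D) =
      Divisor.pullbackAlong g hg (Divisor.pushforwardAlong φ hφ D) := by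
  have hθ : (g'.comp φ).toRingHom.IsIntegral := hφ.trans _ _ hg'
  induction D using Finsupp.induction with
  | zero => simp
  | single_add w n D _ _ ih =>
    suffices h : Divisor.pushforwardAlong ψ hψ (Divisor.pullbackAlong g' hg' (Finsupp.single w 1))
        = Divisor.pullbackAlong g hg (Divisor.pushforwardAlong φ hφ (Finsupp.single w 1)) by
      have hn : Finsupp.single w n = n • Finsupp.single w (1 : ℤ) := by simp
      rw [hn]
      simp only [map_add, map_zsmul, h, ih]
    set v := w.restrictAlong φ hφ with hv
    have hcompat : ∀ (u : Place K E') (z : Place K E), u.restrictAlong ψ hψ = z →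
        (u.restrictAlong g' hg').restrictAlong φ hφ = z.restrictAlong g hg := by
      rintro u z rfl
      rw [restrictAlong_comp (g'.comp φ) hφ hg' hθ (fun _ => rfl),
        restrictAlong_comp (g'.comp φ) hg hψ hθ (fun x => hsq x)]
    refine Finsupp.ext fun z => ?_
    by_cases hz : z.restrictAlong g hg = v
    · obtain ⟨f, hf, hfw, hf0⟩ := exists_fiber_uniformizerAlong φ hφ v w rfl
      obtain ⟨Df, hDf, -⟩ := HasPrincipalDivisors.exists_divisor (K := K) f hf
      obtain ⟨G, hG⟩ : ∃ G, Df = Finsupp.single w 1 + G :=
        ⟨Df - Finsupp.single w 1, by abel⟩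
      have hG0 : ∀ w', w'.restrictAlong φ hφ = v → G w' = 0 := by
        intro w' hw'
        have h1 := hDf w'
        rw [hG, Finsupp.add_apply] at h1
        by_cases hww : w' = w
        · subst hww
          rw [Finsupp.single_eq_same, hfw] at h1
          omega
        · rw [Finsupp.single_eq_of_ne hww, hf0 w' hw' hww, zero_add] at h1
          exact h1
      have hmain : Divisor.pushforwardAlong ψ hψ (Divisor.pullbackAlong g' hg' Df) z =
          Divisor.pullbackAlong g hg (Divisor.pushforwardAlong φ hφ Df) z := by
        rw [pushforwardAlong_div ψ hψ ((_root_.map_ne_zero g').mpr hf)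
            (pullbackAlong_div g' hg' hDf), pullbackAlong_div g hg
            (pushforwardAlong_div φ hφ hf hDf),
          nmAlong_comm φ ψ g g' hsq (Hecke.finiteAlong_of_isFunctionField φ)
            (Hecke.finiteAlong_of_isFunctionField ψ) hdeg hgen]
      have hl : Divisor.pushforwardAlong ψ hψ (Divisor.pullbackAlong g' hg' G) z = 0 := by
        refine pushforwardAlong_apply_eq_zero ψ hψ _ z fun u hu => ?_
        rw [Divisor.pullbackAlong_apply, hG0 _ ((hcompat u z hu).trans hz), mul_zero]
      have hr : Divisor.pullbackAlong g hg (Divisor.pushforwardAlong φ hφ G) z = 0 := by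
        rw [Divisor.pullbackAlong_apply, hz, pushforwardAlong_apply_eq_zero φ hφ G v hG0, mul_zero]
      rw [hG] at hmain
      simp only [map_add, Finsupp.add_apply, hl, hr, add_zero] at hmain
      exact hmain
    · rw [pushforwardAlong_single' φ hφ, ← hv, Divisor.pullbackAlong_apply g hg,
        Finsupp.single_eq_of_ne hz, mul_zero]
      refine pushforwardAlong_apply_eq_zero ψ hψ _ z fun u hu => ?_
      rw [Divisor.pullbackAlong_apply]
      by_cases h : u.restrictAlong g' hg' = w
      · exact absurd (((hcompat u z hu).symm.trans (by rw [h]))) hz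
      · rw [Finsupp.single_eq_of_ne h, mul_zero]

end Fermat.Agent.CarayolReduction
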