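import Fermat.Agent.CarayolReduction.Extension
import Fermat.Agent.GaloisBasics.Place
import Fermat.Prelude.Def_ModularCurve_HeckeModule

/-!
# Carayol's non-unipotence of inertia at `q ^ 2 ∥ M`

Let `g` be a newform of level `M` and `q ≠ lam` a prime dividing `M` exactly twice. `CoreKilled` is
the kernel theorem for the two degeneracy maps `J₀(M) → J₀(M/q)`, `TateExport` the representation
attached to an eigenform with a nonzero equivariant map to the Tate module of `J₀(M)`. Together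
with residual absolute irreducibility they show that inertia at `q` does not act unipotently:
otherwise fixed vectors would give `g`'s eigensystem at the lower level `M/q`.
-/

set_option autoImplicit false

noncomputable section

namespace Fermat.Agent.CarayolReduction

open Polynomial ModularCurve CongruenceSubgroup ModularFormClass

local notation "Qbar" => AlgebraicClosure ℚ

/-- The two degeneracy maps `J₀(M) → J₀(N')` commute with the good Hecke operators and their
common kernel on inertia-invariant `lam`-power torsion is killed by a fixed integer. -/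
def CoreKilled (M N' q lam : ℕ) [NeZero M] [NeZero N'] : Prop :=
  ∃ π π' : JZero M →+ JZero N',
    (∀ (l : ℕ) (hl : l.Prime), ¬ l ∣ M → ∀ x : JZero M,
      π (heckeOperatorBar M ⟨l, hl⟩ x) = heckeOperatorBar N' ⟨l, hl⟩ (π x)) ∧
    (∀ (l : ℕ) (hl : l.Prime), ¬ l ∣ M → ∀ x : JZero M,
      π' (heckeOperatorBar M ⟨l, hl⟩ x) = heckeOperatorBar N' ⟨l, hl⟩ (π' x)) ∧
    ∃ A : ValuationSubring Qbar, A.LiesOverPrime q ∧ ∃ m : ℕ, m ≠ 0 ∧
      ∀ (n : ℕ) (x : JZero M), lam ^ n • x = 0 →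
        (∀ σ ∈ A.inertiaSubgroupIn ℚ, σ • x = x) → π x = 0 → π' x = 0 → m • x = 0

/-- The representation attached to an eigenform, with a nonzero equivariant map to the Tate
module of `J₀(M)` intertwining the eigenvalues with the Hecke operators. -/
def TateExport (M lam : ℕ) [NeZero M] : Prop :=
  ∀ (g : CuspForm (Gamma0 M) 2) (hg : g.IsNormalizedEigenform)
    (A : Type) [CommRing A] [IsDomain A] [IsDiscreteValuationRing A]
    [IsAdicComplete (IsLocalRing.maximalIdeal A) A] [Finite (IsLocalRing.ResidueField A)]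
    [CharZero A] (_ : (lam : A) ∈ IsLocalRing.maximalIdeal A)
    (c : (HeckeEigen.eigenChar hg (badSet M)).range →+* A),
    ∃ (B : Type) (_ : CommRing B) (_ : IsDomain B) (_ : IsDiscreteValuationRing B)
      (_ : IsAdicComplete (IsLocalRing.maximalIdeal B) B)
      (_ : Finite (IsLocalRing.ResidueField B)) (_ : CharZero B) (_ : Algebra A B)
      (_ : Module.Finite A B) (_ : IsLocalHom (algebraMap A B)),
      Function.Injective (algebraMap A B) ∧
      ∃ ρ : GaloisRepAdic B,
        (∀ (l : ℕ) (hl : l.Prime) (hlM : ¬ l ∣ M), l ≠ lam →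
          ∀ P : ValuationSubring Qbar, P.LiesOverPrime l →
            ∀ σ : Qbar ≃ₐ[ℚ] Qbar, P.IsFrobeniusAt σ l →
              LinearMap.charpoly (ρ.ρ σ) =
                X ^ 2 - C (algebraMap A B (c ((HeckeEigen.eigenChar hg (badSet M)).rangeRestrict
                  (CuspForm.heckeAlgebra.T hl hlM (not_mem_badSet hlM))))) * X + C ((l : B))) ∧
        ∃ j : ρ.V →+ tateModule (JZero M) lam, j ≠ 0 ∧
          (∀ (σ : Qbar ≃ₐ[ℚ] Qbar) (v : ρ.V) (n : ℕ), (j (ρ.ρ σ v)).1 n = σ • (j v).1 n) ∧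
          ∀ (l : ℕ) (hl : l.Prime) (hlM : ¬ l ∣ M) (v : ρ.V) (n : ℕ),
            (j (algebraMap A B (c ((HeckeEigen.eigenChar hg (badSet M)).rangeRestrict
                (CuspForm.heckeAlgebra.T hl hlM (not_mem_badSet hlM)))) • v)).1 n =
              heckeOperatorBar M ⟨l, hl⟩ ((j v).1 n)

variable {M : ℕ} [NeZero M] {lam : ℕ}

/-- The representation inside the Tate module of `J₀(M)` of a newform of level `M` is not
unipotent on inertia at `q` if the common kernel of the degeneracy maps is killed. -/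
theorem not_isUnipotentOnInertiaAt {g : CuspForm (Gamma0 M) 2} (hg : g.IsNewform)
    (hlam : lam.Prime) {q N' : ℕ} [NeZero N'] (hdvd : N' ∣ M) (hne : N' ≠ M)
    (hcomm : HeckeOperatorsCommuteBar N')
    (hfac : TorsionFactors N' lam (badSet M) fun _ h h' => mem_badSet_of_dvd hdvd h h')
    (hcore : CoreKilled M N' q lam)
    {A : Type} [CommRing A] [IsDomain A] [IsDiscreteValuationRing A]
    (hl : (lam : A) ∈ IsLocalRing.maximalIdeal A)
    (c : (HeckeEigen.eigenChar hg.1 (badSet M)).range →+* A) (hc : Function.Injective c)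
    (ρ : GaloisRepAdic A) (hirr : ρ.residual.IsAbsolutelyIrreducible)
    (j : ρ.V →+ tateModule (JZero M) lam) (hj0 : j ≠ 0)
    (hgal : ∀ (σ : Qbar ≃ₐ[ℚ] Qbar) (v : ρ.V) (n : ℕ), (j (ρ.ρ σ v)).1 n = σ • (j v).1 n)
    (hj : ∀ (l : ℕ) (hl' : l.Prime) (hlM : ¬ l ∣ M) (v : ρ.V) (n : ℕ),
      (j (c ((HeckeEigen.eigenChar hg.1 (badSet M)).rangeRestrict
          (CuspForm.heckeAlgebra.T hl' hlM (not_mem_badSet hlM))) • v)).1 n =
        heckeOperatorBar M ⟨l, hl'⟩ ((j v).1 n)) :
    ¬ ρ.IsUnipotentOnInertiaAt q := by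
  obtain ⟨π, π', hπ, hπ', P, hP, m, hm, hkill⟩ := hcore
  have hzero : ∀ p : JZero M →+ JZero N',
      (∀ (l : ℕ) (hl' : l.Prime), ¬ l ∣ M → ∀ x : JZero M,
        p (heckeOperatorBar M ⟨l, hl'⟩ x) = heckeOperatorBar N' ⟨l, hl'⟩ (p x)) →
      (tateMap p).comp j = 0 := by
    intro p hp
    by_contra hne'
    refine hg.2 N' hdvd hne ?_
    refine goodEigensystemOccursAt_of_map hg.1 hdvd hcomm hfac hl c hc _ hne' ?_
    intro l hl' hlM v n
    simp only [AddMonoidHom.comp_apply, tateMap_apply, hj l hl' hlM v n, hp l hl' hlM]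
  refine not_isUnipotentOnInertiaAt_of_map ρ hirr hl j hgal hj0 hP fun v hv => ?_
  refine tateModule_eq_zero_of_bounded hlam hm fun n => ?_
  refine hkill n _ (tateModule_pow_smul _ n) (fun σ hσ => ?_) ?_ ?_
  · rw [← hgal, hv σ hσ]
  · exact congrFun (congrArg Subtype.val (DFunLike.congr_fun (hzero π hπ) v)) n
  · exact congrFun (congrArg Subtype.val (DFunLike.congr_fun (hzero π' hπ') v)) n

/-- What is needed at the levels `M / q` for the primes `q ≠ lam` with `q ^ 2 ∥ M`. -/
def LevelInputs (M lam : ℕ) [NeZero M] : Prop :=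
  ∀ q : ℕ, q.Prime → q ≠ lam → M.factorization q = 2 →
    ∃ (_ : NeZero (M / q)) (hdvd : M / q ∣ M),
      HeckeOperatorsCommuteBar (M / q) ∧
      TorsionFactors (M / q) lam (badSet M) (fun _ h h' => mem_badSet_of_dvd hdvd h h') ∧
      CoreKilled M (M / q) q lam

/-- **Carayol's theorem** from `TateExport` and `LevelInputs`: some representation attached to `g`
with residually absolutely irreducible reduction is non-unipotent on inertia at each `q ^ 2 ∥ M`,
`q ≠ lam`. -/
theorem s36_of_inputs {M : ℕ} [NeZero M] {g : CuspForm (Gamma0 M) 2} (hg : g.IsNewform)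
    (lam : ℕ) [Fact lam.Prime]
    (S : Finset ℕ)
    (O' : Type) [CommRing O'] [IsDomain O'] [IsDiscreteValuationRing O']
    [IsAdicComplete (IsLocalRing.maximalIdeal O') O'] [Finite (IsLocalRing.ResidueField O')]
    [CharZero O'] (hlamO' : (lam : O') ∈ IsLocalRing.maximalIdeal O')
    (chig : CuspForm.heckeAlgebra M 2 (↑S : Set ℕ) →+* ℂ)
    (hchig : ∀ (ℓ : ℕ) (hℓ : ℓ.Prime) (hℓM : ¬ ℓ ∣ M) (hℓS : ℓ ∉ (↑S : Set ℕ)),
      chig (CuspForm.heckeAlgebra.T hℓ hℓM hℓS) = ModularFormClass.qCoeff g ℓ)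
    (iota : chig.range →+* O')
    (hlamS : lam ∈ S) (hMS : ∀ q : ℕ, q.Prime → q ∣ M → q ∈ S)
    (hres : ∀ (O'' : Type) [CommRing O''] [IsDomain O''] [IsDiscreteValuationRing O'']
      [IsAdicComplete (IsLocalRing.maximalIdeal O'') O''] [Finite (IsLocalRing.ResidueField O'')]
      [CharZero O''] [Algebra O' O''] [Module.Finite O' O''] [IsLocalHom (algebraMap O' O'')],
      Function.Injective (algebraMap O' O'') → ∀ (ρ : GaloisRepAdic O''),
      (∀ (ℓ : ℕ) (hℓ : ℓ.Prime) (_ : ℓ ≠ lam) (hℓM : ¬ ℓ ∣ M) (hℓS : ℓ ∉ (↑S : Set ℕ)),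
        ∀ A : ValuationSubring Qbar, A.LiesOverPrime ℓ →
          ∀ σ : Qbar ≃ₐ[ℚ] Qbar, A.IsFrobeniusAt σ ℓ →
            LinearMap.charpoly (ρ.ρ σ) =
              X ^ 2 - C (algebraMap O' O'' ((iota.comp chig.rangeRestrict)
                (CuspForm.heckeAlgebra.T hℓ hℓM hℓS))) * X + C ((ℓ : O'')))
      → ρ.residual.IsAbsolutelyIrreducible ∧ ρ.residual.IsOdd)
    (hexport : TateExport M lam) (hlevel : LevelInputs M lam) :
    ∃ (O'' : Type) (_ : CommRing O'') (_ : IsDomain O'') (_ : IsDiscreteValuationRing O'')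
      (_ : IsAdicComplete (IsLocalRing.maximalIdeal O'') O'')
      (_ : Finite (IsLocalRing.ResidueField O'')) (_ : CharZero O'') (_ : Algebra O' O'')
      (_ : Module.Finite O' O'') (_ : IsLocalHom (algebraMap O' O'')),
      Function.Injective (algebraMap O' O'') ∧
      ∃ ρ : GaloisRepAdic O'',
        (∀ (ℓ : ℕ) (hℓ : ℓ.Prime) (hℓM : ¬ ℓ ∣ M) (hℓS : ℓ ∉ (↑S : Set ℕ)),
          ∀ A : ValuationSubring Qbar, A.LiesOverPrime ℓ →
            ∀ σ : Qbar ≃ₐ[ℚ] Qbar, A.IsFrobeniusAt σ ℓ →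
              LinearMap.charpoly (ρ.ρ σ) =
                X ^ 2 - C (algebraMap O' O'' ((iota.comp chig.rangeRestrict)
                  (CuspForm.heckeAlgebra.T hℓ hℓM hℓS))) * X + C ((ℓ : O''))) ∧
        (∀ q : ℕ, q.Prime → q ≠ lam → M.factorization q = 2 →
          ¬ ρ.IsUnipotentOnInertiaAt q) := by
  obtain ⟨O₁, i1, i2, i3, i4, i5, i6, i7, i8, i9, hinj₁, c, hc, hcT⟩ :=
    exists_extension hg.1 hMS chig hchig O' iota
  let := i1; let := i7
  have := i2; have := i3; have := i4; have := i5; have := i6; have := i8; have := i9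
  have hl₁ : (lam : O₁) ∈ IsLocalRing.maximalIdeal O₁ := by
    rw [← map_natCast (algebraMap O' O₁)]
    exact map_nonunit (algebraMap O' O₁) _ hlamO'
  obtain ⟨B, j1, j2, j3, j4, j5, j6, j7, j8, j9, hinj₂, ρ, hfrob, j, hj0, hgal, hj⟩ :=
    hexport g hg.1 O₁ hl₁ c
  let := j1; let := j7
  have := j2; have := j3; have := j4; have := j5; have := j6; have := j8; have := j9
  let : Algebra O' B := ((algebraMap O₁ B).comp (algebraMap O' O₁)).toAlgebra
  have : IsScalarTower O' O₁ B := IsScalarTower.of_algebraMap_eq fun _ => rfl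
  have : Module.Finite O' B := Module.Finite.trans O₁ B
  have : IsLocalHom (algebraMap O' B) :=
    inferInstanceAs (IsLocalHom ((algebraMap O₁ B).comp (algebraMap O' O₁)))
  have hinj : Function.Injective (algebraMap O' B) := hinj₂.comp hinj₁
  have hl₂ : (lam : B) ∈ IsLocalRing.maximalIdeal B := by
    rw [← map_natCast (algebraMap O₁ B)]
    exact map_nonunit (algebraMap O₁ B) _ hl₁
  have hfrob' : ∀ (ℓ : ℕ) (hℓ : ℓ.Prime) (hℓM : ¬ ℓ ∣ M) (hℓS : ℓ ∉ (↑S : Set ℕ)),
      ∀ A : ValuationSubring Qbar, A.LiesOverPrime ℓ →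
        ∀ σ : Qbar ≃ₐ[ℚ] Qbar, A.IsFrobeniusAt σ ℓ →
          LinearMap.charpoly (ρ.ρ σ) =
            X ^ 2 - C (algebraMap O' B ((iota.comp chig.rangeRestrict)
              (CuspForm.heckeAlgebra.T hℓ hℓM hℓS))) * X + C ((ℓ : B)) := by
    intro ℓ hℓ hℓM hℓS A hA σ hσ
    rw [hfrob ℓ hℓ hℓM (fun h => hℓS (h ▸ hlamS)) A hA σ hσ, hcT ℓ hℓ hℓM hℓS]
    rfl
  refine ⟨B, inferInstance, inferInstance, inferInstance, inferInstance, inferInstance,
    inferInstance, inferInstance, inferInstance, inferInstance, hinj, ρ, hfrob', ?_⟩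
  intro q hq hql hq2
  have hirr : ρ.residual.IsAbsolutelyIrreducible :=
    (hres B hinj ρ fun ℓ hℓ _ hℓM hℓS => hfrob' ℓ hℓ hℓM hℓS).1
  obtain ⟨_, hdvd, hcomm, hfac, hcore⟩ := hlevel q hq hql hq2
  exact not_isUnipotentOnInertiaAt hg Fact.out hdvd
    (Nat.div_lt_self (Nat.pos_of_ne_zero (NeZero.ne M)) hq.one_lt).ne hcomm hfac hcore hl₂
    ((algebraMap O₁ B).comp c) (hinj₂.comp hc) ρ hirr j hj0 hgal hj

end Fermat.Agent.CarayolReduction
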