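import Fermat.Agent.CarayolFF.Norms
import Fermat.Agent.Hecke.Inputs
import Fermat.Agent.Hecke.Degree

/-!
# The two degeneracy maps from level `qN` to level `q²N`

`dilHom d` is `f(t) ↦ f(t^d)`. For `d = 1, q` both maps from level `qN` to level `q²N` have degree
`q`, and their images miss an explicit generator.
-/

set_option autoImplicit false

noncomputable section

open AlgebraicCurve ModularCurve
open Fermat.Agent.CarayolFF (Idx gen genFlip gen_mem)

namespace Fermat.Agent.CarayolReduction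

local notation "Qb" => AlgebraicClosure ℚ

/-- The function fields grow with the level. -/
theorem bar_mono {N M : ℕ} [NeZero N] [NeZero M] (h : N ∣ M) :
    modularFunctionFieldBar N ≤ modularFunctionFieldBar M := by
  rw [modularFunctionFieldBar, modularFunctionFieldBar, laurentBaseChange,
    IntermediateField.adjoin_le_iff]
  rintro _ ⟨x, hx, rfl⟩
  exact coeffEmb_mem_laurentBaseChange Qb (full_degeneracy_le h hx)

section Dil

variable (N M d : ℕ) [NeZero N] [NeZero M] [NeZero d]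

theorem qExpand_mem (h : N * d ∣ M) {x : LaurentSeries Qb} (hx : x ∈ modularFunctionFieldBar N) :
    qExpand Qb d x ∈ modularFunctionFieldBar M := by
  have h1 := (heckeBetaBar Qb N d ⟨x, hx⟩).2
  rw [coe_heckeBetaBar] at h1
  exact bar_mono h h1

/-- `f(t) ↦ f(t^d)` from level `N` to level `M`. -/
def dilHom (h : N * d ∣ M) : modularFunctionFieldBar N →ₐ[Qb] modularFunctionFieldBar M where
  toFun x := ⟨qExpand Qb d (x : LaurentSeries Qb), qExpand_mem N M d h x.2⟩
  map_one' := Subtype.ext (map_one _)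
  map_mul' _ _ := Subtype.ext (map_mul _ _ _)
  map_zero' := Subtype.ext (map_zero _)
  map_add' _ _ := Subtype.ext (map_add _ _ _)
  commutes' a := Subtype.ext <| by
    show qExpand Qb d (algebraMap Qb (LaurentSeries Qb) a) = algebraMap Qb (LaurentSeries Qb) a
    rw [algebraMap_laurentSeries_eq_single, qExpand_single, mul_zero]

/-- `dilHom` substitutes `t ^ d` in the expansion. -/
@[simp]
theorem coe_dilHom (h : N * d ∣ M) (x : modularFunctionFieldBar N) :
    (dilHom N M d h x : LaurentSeries Qb) = qExpand Qb d (x : LaurentSeries Qb) := rfl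

/-- `dilHom` is an integral extension. -/
theorem dilHom_integral (h : N * d ∣ M) : (dilHom N M d h).toRingHom.IsIntegral :=
  Hecke.isIntegral_of_isFunctionField _

/-- At level `N ℓ` with `d = ℓ`, `dilHom` is the second degeneracy map. -/
theorem dilHom_eq_beta (ℓ : ℕ) [NeZero ℓ] :
    dilHom N (N * ℓ) ℓ dvd_rfl = heckeBetaBar Qb N ℓ := rfl

/-- At level `N ℓ` with `d = 1`, `dilHom` is the first degeneracy map. -/
theorem dilHom_eq_alpha (ℓ : ℕ) [NeZero ℓ] :
    dilHom N (N * ℓ) 1 (by simp) = heckeAlphaBar Qb N ℓ :=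
  AlgHom.ext fun x => Subtype.ext <| by rw [coe_dilHom, coe_heckeAlphaBar, qExpand_one_apply]

end Dil

/-- A field embedding of `ℚ̄` into `ℂ`. -/
def embC : Qb →+* ℂ :=
  haveI : Algebra.IsAlgebraic ℚ Qb := AlgebraicClosure.isAlgebraic ℚ
  (IsAlgClosed.lift (R := ℚ) (S := Qb) (M := ℂ)).toRingHom

variable {q N L M : ℕ} [NeZero q] [NeZero N] [NeZero L] [NeZero M]

omit [NeZero q] [NeZero N] in
theorem dedekindPsi_sq_mul (hq : q.Prime) (hqN : ¬ q ∣ N) :
    dedekindPsi (q ^ 2 * N) = dedekindPsi (q * N) * q := by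
  have h1 : Nat.Coprime q N := hq.coprime_iff_not_dvd.mpr hqN
  rw [Gamma0Cosets.dedekindPsi_mul h1, Gamma0Cosets.dedekindPsi_mul (h1.pow_left 2),
    Gamma0Cosets.dedekindPsi_prime_pow hq two_pos]
  have hpq := Gamma0Cosets.dedekindPsi_prime_pow hq one_pos
  rw [pow_one] at hpq
  rw [hpq]
  simp only [Nat.sub_self, pow_zero]
  ring

omit [NeZero q] [NeZero N] in
/-- The inclusion of level `qN` in level `q²N` has degree `q`. -/
theorem finrank_dilHom_one (hq : q.Prime) (hqN : ¬ q ∣ N) (hL : L = q * N) (hM : M = q ^ 2 * N)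
    (h : L * 1 ∣ M) : finrankAlong Qb (dilHom L M 1 h) = q := by
  have e := Hecke.finrank_adjoin_map (dilHom L M 1 h) (ModCurveGenus.jEl L)
  have hj : dilHom L M 1 h (ModCurveGenus.jEl L) = ModCurveGenus.jEl M :=
    Subtype.ext <| by rw [coe_dilHom, qExpand_one_apply]; rfl
  rw [hj, Hecke.finrank_jEl, Hecke.finrank_jEl] at e
  subst hL hM
  rw [dedekindPsi_sq_mul hq hqN] at e
  have hpos : 0 < dedekindPsi (q * N) := by
    rw [← Gamma0Cosets.card_cosets (q * N)]
    exact Nat.pos_of_ne_zero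
      (Subgroup.index_ne_zero_of_finite (H := CongruenceSubgroup.Gamma0 (q * N)))
  exact (Nat.eq_of_mul_eq_mul_left hpos e).symm

/-- The degree along `φ` is the degree over its image. -/
theorem finrankAlong_comp_equiv {K F F₀ F' : Type*} [Field K] [Field F] [Field F₀] [Field F']
    [Algebra K F] [Algebra K F₀] [Algebra K F'] (φ : F →ₐ[K] F') (ψ : F₀ →ₐ[K] F')
    (i : F ≃ₐ[K] F₀) (j : F' ≃ₐ[K] F') (h : ∀ x, ψ (i x) = j (φ x)) :
    finrankAlong K φ = finrankAlong K ψ := by
  let := algebraAlong φ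
  let := algebraAlong ψ
  exact Algebra.finrank_eq_of_equiv_equiv i.toRingEquiv j.toRingEquiv
    (RingHom.ext fun x => h x)

/-- The Atkin–Lehner automorphism as an equivalence. -/
def flipEquiv (hq : q.Prime) (hqN : ¬ q ∣ N) :
    modularFunctionFieldBar (q ^ 2 * N) ≃ₐ[Qb] modularFunctionFieldBar (q ^ 2 * N) :=
  AlgEquiv.ofAlgHom (CarayolFF.flipHom hq hqN embC) (CarayolFF.flipHom hq hqN embC)
    (AlgHom.ext fun z => CarayolFF.flipHom_flipHom hq hqN embC z)
    (AlgHom.ext fun z => CarayolFF.flipHom_flipHom hq hqN embC z)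

/-- The Atkin–Lehner automorphism permutes the generators. -/
theorem flipEquiv_gen (hq : q.Prime) (hqN : ¬ q ∣ N) (x : Idx N) :
    flipEquiv hq hqN ⟨gen q Qb x, gen_mem Qb hq x⟩ =
      ⟨gen q Qb (Fin.rev x.1, x.2), gen_mem Qb hq _⟩ :=
  Subtype.ext (CarayolFF.flipHom_gen hq hqN embC x)

/-- The Atkin–Lehner involution swaps the images of the two degeneracy maps. -/
theorem dilHom_mem_range (hq : q.Prime) (hqN : ¬ q ∣ N) (h : q * N * 1 ∣ q ^ 2 * N)
    (h' : q * N * q ∣ q ^ 2 * N) (x : modularFunctionFieldBar (q * N)) :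
    flipEquiv hq hqN (dilHom (q * N) (q ^ 2 * N) 1 h x) ∈
        (dilHom (q * N) (q ^ 2 * N) q h').fieldRange ∧
      flipEquiv hq hqN (dilHom (q * N) (q ^ 2 * N) q h' x) ∈
        (dilHom (q * N) (q ^ 2 * N) 1 h).fieldRange := by
  set φ := dilHom (q * N) (q ^ 2 * N) 1 h
  set ψ := dilHom (q * N) (q ^ 2 * N) q h'
  set w := flipEquiv hq hqN
  refine CarayolFF.induction_of_eq_adjoin (CarayolFF.lowerField_eq (N := N) (L := Qb) hq)
    (P := fun x => w (φ x) ∈ ψ.fieldRange ∧ w (ψ x) ∈ φ.fieldRange) ?_ ?_ ?_ ?_ ?_ x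
  · rintro _ ⟨⟨i, d⟩, hi, rfl⟩ hm
    have hi1 : (i : ℕ) ≤ 1 := by
      have := i.isLt
      have : (i : ℕ) ≠ 2 := fun h' => hi (Fin.ext h')
      omega
    let i' : Fin 3 := ⟨(i : ℕ) + 1, by omega⟩
    let i'' : Fin 3 := ⟨1 - (i : ℕ), by omega⟩
    have hφ : φ ⟨gen q Qb (i, d), hm⟩ = ⟨gen q Qb (i, d), gen_mem Qb hq _⟩ :=
      Subtype.ext <| by rw [coe_dilHom, qExpand_one_apply]
    have hψ : ψ ⟨gen q Qb (i, d), hm⟩ = ⟨gen q Qb (i', d), gen_mem Qb hq _⟩ :=
      Subtype.ext <| by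
        rw [coe_dilHom]
        show qExpand Qb q (qExpand Qb (d.1 * q ^ (i : ℕ)) _) =
          qExpand Qb (d.1 * q ^ ((i : ℕ) + 1)) _
        rw [qExpand_qExpand]
        exact qExpand_congr (by ring) _
    have hmem : ∀ (k : Fin 3), k ≠ 2 → gen q Qb (k, d) ∈ modularFunctionFieldBar (q * N) := by
      intro k hk
      rw [modularFunctionFieldBar, CarayolFF.lowerField_eq hq]
      exact IntermediateField.subset_adjoin _ _ ⟨(k, d), hk, rfl⟩
    have hk : ∀ (k : ℕ) (hk : k ≤ 1), (⟨k, by omega⟩ : Fin 3) ≠ 2 := by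
      intro k hk heq
      have := congrArg Fin.val heq
      simp at this
      omega
    constructor
    · rw [hφ, flipEquiv_gen]
      refine ⟨⟨gen q Qb (i'', d), hmem _ (hk _ (by omega))⟩, Subtype.ext ?_⟩
      show qExpand Qb q (qExpand Qb (d.1 * q ^ (1 - (i : ℕ))) (jqModC Qb)) = qExpand Qb _ _
      rw [qExpand_qExpand]
      refine qExpand_congr ?_ _
      show q * (d.1 * q ^ (1 - (i : ℕ))) = d.1 * q ^ ((Fin.rev i : Fin 3) : ℕ)
      rw [Fin.val_rev]
      rw [show 3 - ((i : ℕ) + 1) = 1 - (i : ℕ) + 1 by omega, pow_succ]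
      ring
    · rw [hψ, flipEquiv_gen]
      refine ⟨⟨gen q Qb (i'', d), hmem _ (hk _ (by omega))⟩, Subtype.ext ?_⟩
      show qExpand Qb 1 (gen q Qb (i'', d)) = gen q Qb (Fin.rev i', d)
      rw [qExpand_one_apply]
      congr 2
      apply Fin.ext
      show 1 - (i : ℕ) = _
      rw [Fin.val_rev]
      show _ = 3 - ((i : ℕ) + 1 + 1)
      omega
  · exact fun c => ⟨⟨algebraMap Qb _ c, by simp⟩, ⟨algebraMap Qb _ c, by simp⟩⟩
  · intro a b ha hb
    simp only [map_add]
    exact ⟨add_mem ha.1 hb.1, add_mem ha.2 hb.2⟩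
  · intro a ha
    simp only [map_inv₀]
    exact ⟨inv_mem ha.1, inv_mem ha.2⟩
  · intro a b ha hb
    simp only [map_mul]
    exact ⟨mul_mem ha.1 hb.1, mul_mem ha.2 hb.2⟩

/-- The second degeneracy map has degree `q` too. -/
theorem finrank_dilHom_q (hq : q.Prime) (hqN : ¬ q ∣ N) (hL : L = q * N) (hM : M = q ^ 2 * N)
    (h : L * q ∣ M) : finrankAlong Qb (dilHom L M q h) = q := by
  have h1 : L * 1 ∣ M := by rw [mul_one]; exact (Dvd.intro q rfl).trans h
  refine Eq.trans ?_ (finrank_dilHom_one hq hqN hL hM h1)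
  subst hL hM
  set φ := dilHom (q * N) (q ^ 2 * N) 1 h1
  set ψ := dilHom (q * N) (q ^ 2 * N) q h
  set w := flipEquiv hq hqN
  let θ : modularFunctionFieldBar (q * N) →ₐ[Qb] modularFunctionFieldBar (q ^ 2 * N) :=
    w.toAlgHom.comp φ
  have hrange : θ.fieldRange = ψ.fieldRange := by
    refine le_antisymm ?_ ?_
    · rintro _ ⟨x, rfl⟩
      exact (dilHom_mem_range hq hqN h1 h x).1
    · rintro _ ⟨x, rfl⟩
      obtain ⟨y, hy⟩ := (dilHom_mem_range hq hqN h1 h x).2
      refine ⟨y, ?_⟩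
      show w (φ y) = ψ x
      rw [show φ y = w (ψ x) from hy]
      exact CarayolFF.flipHom_flipHom hq hqN embC _
  let e := (AlgEquiv.ofInjectiveField θ).trans ((Subalgebra.equivOfEq _ _
      (congrArg IntermediateField.toSubalgebra hrange)).trans (AlgEquiv.ofInjectiveField ψ).symm)
  refine (finrankAlong_comp_equiv φ ψ e w fun x => ?_).symm
  show ((AlgEquiv.ofInjectiveField ψ (e x)) : modularFunctionFieldBar (q ^ 2 * N)) = θ x
  simp only [e, AlgEquiv.trans_apply]
  exact (congrArg Subtype.val (AlgEquiv.apply_symm_apply (AlgEquiv.ofInjectiveField ψ) _)).trans rfl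

/-- The generator `j(t^(q²d))` is not of level `qN`. -/
theorem not_mem_range_one (hq : q.Prime) (hqN : ¬ q ∣ N) (hL : L = q * N) (hM : M = q ^ 2 * N)
    (h : L * 1 ∣ M) {d : ℕ} [NeZero d] (hd : d ∣ N)
    (x : modularFunctionFieldBar M)
    (hx : (x : LaurentSeries Qb) = qExpand Qb (d * q ^ 2) (jqModC Qb)) :
    x ∉ (dilHom L M 1 h).fieldRange := by
  subst hL hM
  rintro ⟨y, hy⟩
  obtain ⟨u, hu⟩ := HasEnoughRootsOfUnity.exists_primitiveRoot Qb q
  set v : Qbˣ := (hu.isUnit hq.ne_zero).unit with hv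
  have hvq : v ^ q = 1 := Units.ext <| by simp [hv, hu.pow_eq_one]
  have hv1 : v ≠ 1 := fun h1 => hu.ne_one hq.one_lt (by rw [← (hu.isUnit hq.ne_zero).unit_spec,
    ← hv, h1, Units.val_one])
  let σ := CarayolFF.midHom hq hqN embC v hvq hv1
  have hfix : ∀ y : modularFunctionFieldBar (q * N),
      σ (dilHom (q * N) (q ^ 2 * N) 1 h y) = (y : LaurentSeries Qb) := by
    intro y
    refine CarayolFF.induction_of_eq_adjoin (CarayolFF.lowerField_eq (N := N) (L := Qb) hq)
      (P := fun y => σ (dilHom (q * N) (q ^ 2 * N) 1 h y) = (y : LaurentSeries Qb))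
      ?_ ?_ ?_ ?_ ?_ y
    · rintro _ ⟨k, hk, rfl⟩ hm
      have : dilHom (q * N) (q ^ 2 * N) 1 h ⟨gen q Qb k, hm⟩ =
          ⟨gen q Qb k, gen_mem Qb hq k⟩ := Subtype.ext <| by rw [coe_dilHom, qExpand_one_apply]
      rw [this, CarayolFF.midHom_gen]
      exact if_neg hk
    · intro c; simp
    · intro a b ha hb; simp only [map_add, ha, hb, IntermediateField.coe_add]
    · intro a ha; simp only [map_inv₀, ha, IntermediateField.coe_inv]
    · intro a b ha hb; simp only [map_mul, ha, hb, IntermediateField.coe_mul]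
  have hxgen : x = ⟨gen q Qb ((2 : Fin 3), ⟨d, hd⟩), gen_mem Qb hq _⟩ :=
    Subtype.ext (hx.trans rfl)
  have h1 := hfix y
  rw [show dilHom (q * N) (q ^ 2 * N) 1 h y = x from hy, hxgen, CarayolFF.midHom_gen] at h1
  have h2 : (y : LaurentSeries Qb) = qExpand Qb (d * q ^ 2) (jqModC Qb) := by
    rw [← hx, ← hy]; exact (qExpand_one_apply _).symm
  rw [h2, CarayolFF.genMid, if_pos rfl] at h1
  have h3 := congrArg (fun s : LaurentSeries Qb => s.coeff (-(d : ℤ))) h1
  simp only [ModularFunctionField.twist_coeff, CarayolFF.coeff_qExpand_jqModC_neg, mul_one] at h3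
  rw [qExpand_coeff_of_not_dvd] at h3
  · exact Units.ne_zero _ h3
  · rw [dvd_neg]
    intro hd'
    have hd'' : d * q ^ 2 ∣ d := Int.natCast_dvd_natCast.mp (by simpa using hd')
    have := Nat.le_of_dvd (Nat.pos_of_ne_zero (NeZero.ne d)) hd''
    have h4 : 4 ≤ q ^ 2 := by nlinarith [hq.two_le]
    nlinarith [Nat.pos_of_ne_zero (NeZero.ne d)]

/-- A series in `t` with a pole of order prime to `q` is not in the image of `f ↦ f(t^q)`. -/
theorem not_mem_range_q (h : L * q ∣ M) {e : ℕ} [NeZero e] (he : ¬ q ∣ e)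
    (x : modularFunctionFieldBar M) (hx : (x : LaurentSeries Qb) = qExpand Qb e (jqModC Qb)) :
    x ∉ (dilHom L M q h).fieldRange := by
  rintro ⟨y, hy⟩
  have h1 : qExpand Qb q (y : LaurentSeries Qb) = qExpand Qb e (jqModC Qb) := by
    rw [← hx, ← hy]; rfl
  have h2 := congrArg (fun s : LaurentSeries Qb => s.coeff (-(e : ℤ))) h1
  simp only [CarayolFF.coeff_qExpand_jqModC_neg] at h2
  rw [qExpand_coeff_of_not_dvd] at h2
  · exact zero_ne_one h2
  · rw [dvd_neg]
    exact fun hd => he (Int.natCast_dvd_natCast.mp hd)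

end Fermat.Agent.CarayolReduction
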