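import Fermat.Prelude.Def_AlgebraicCurve_Correspondence
import Mathlib.RingTheory.Norm.Basic
import Mathlib.FieldTheory.IntermediateField.Adjoin.Basic
import Mathlib.RingTheory.Algebraic.Integral
import Mathlib.LinearAlgebra.Dimension.OrzechProperty

/-!
# Norms commute with base change in a linearly disjoint square of fields

`nmAlong φ` is the norm along a finite embedding of fields `φ`; `nmAlong_comm` is its
compatibility with a square `g' ∘ φ = ψ ∘ g` of fields with equal degrees and generating images.
-/

set_option autoImplicit false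

noncomputable section

open AlgebraicCurve

namespace Fermat.Agent.CarayolReduction

/-- The norm along an embedding of fields. -/
def nmAlong {K F F' : Type*} [Field K] [Field F] [Field F'] [Algebra K F] [Algebra K F']
    (φ : F →ₐ[K] F') : F' →* F :=
  letI := algebraAlong φ
  Algebra.norm F

variable {K F F' E E' : Type*} [Field K] [Field F] [Field F'] [Field E] [Field E']
  [Algebra K F] [Algebra K F'] [Algebra K E] [Algebra K E']

/-- The norm of a nonzero element is nonzero. -/
theorem nmAlong_ne_zero {φ : F →ₐ[K] F'} (h : FiniteAlong K φ) {x : F'} (hx : x ≠ 0) :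
    nmAlong φ x ≠ 0 := by
  let := algebraAlong φ
  have : Module.Finite F F' := h
  exact Algebra.norm_ne_zero_iff.mpr hx

/-- **Norms commute with base change.** For a commutative square `g' ∘ φ = ψ ∘ g` with
`[F' : F] = [E' : E]` and `E'` generated by the images of `F'` and `E`. -/
theorem nmAlong_comm (φ : F →ₐ[K] F') (ψ : E →ₐ[K] E') (g : F →ₐ[K] E) (g' : F' →ₐ[K] E')
    (hsq : ∀ x, g' (φ x) = ψ (g x)) (hφ : FiniteAlong K φ) (hψ : FiniteAlong K ψ)
    (hdeg : finrankAlong K φ = finrankAlong K ψ)
    (hgen : IntermediateField.adjoin K (Set.range g' ∪ Set.range ψ) = ⊤) (x : F') :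
    nmAlong ψ (g' x) = g (nmAlong φ x) := by
  let := algebraAlong φ
  let := algebraAlong ψ
  have : Module.Finite F F' := hφ
  have : Module.Finite E E' := hψ
  have := isScalarTower_along ψ
  let b := Module.finBasis F F'
  let W : Submodule E E' := Submodule.span E (Set.range fun i => g' (b i))
  have hsmul : ∀ (a : F) (y : F'), g' (a • y) = g a • g' y := fun a y => by
    rw [Algebra.smul_def, map_mul, Algebra.smul_def]
    exact congrArg (· * g' y) (hsq a)
  have hWy : ∀ y : F', g' y ∈ W := fun y => by
    rw [← b.sum_repr y, map_sum]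
    refine Submodule.sum_mem _ fun i _ => ?_
    rw [hsmul]
    exact Submodule.smul_mem _ _ (Submodule.subset_span ⟨i, rfl⟩)
  have hmul : ∀ u v, u ∈ W → v ∈ W → u * v ∈ W := by
    intro u v hu hv
    induction hu using Submodule.span_induction with
    | mem z hz =>
      obtain ⟨i, rfl⟩ := hz
      induction hv using Submodule.span_induction with
      | mem w hw =>
        obtain ⟨k, rfl⟩ := hw
        show g' (b i) * g' (b k) ∈ W
        rw [← map_mul]
        exact hWy _
      | zero => rw [mul_zero]; exact W.zero_mem
      | add a c _ _ ha hc => rw [mul_add]; exact W.add_mem ha hc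
      | smul c a _ ha => rw [mul_smul_comm]; exact W.smul_mem c ha
    | zero => rw [zero_mul]; exact W.zero_mem
    | add a c _ _ ha hc => rw [add_mul]; exact W.add_mem ha hc
    | smul c a _ ha => rw [smul_mul_assoc]; exact W.smul_mem c ha
  let A : Subalgebra E E' := W.toSubalgebra (by simpa using hWy 1) hmul
  have hinv : ∀ u ∈ A, u⁻¹ ∈ A := fun u hu =>
    A.inv_mem_of_algebraic (x := ⟨u, hu⟩) (Algebra.IsAlgebraic.isAlgebraic u)
  let M : IntermediateField K E' :=
    { A.restrictScalars K with
      inv_mem' := hinv }
  have htop : ∀ u : E', u ∈ W := fun u => by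
    have : IntermediateField.adjoin K (Set.range g' ∪ Set.range ψ) ≤ M := by
      rw [IntermediateField.adjoin_le_iff]
      rintro _ (⟨y, rfl⟩ | ⟨e, rfl⟩)
      · exact hWy y
      · exact A.algebraMap_mem e
    exact this (hgen ▸ IntermediateField.mem_top)
  let b' : Module.Basis (Fin (Module.finrank F F')) E E' :=
    basisOfTopLeSpanOfCardEqFinrank (fun i => g' (b i)) (fun u _ => htop u)
      ((Fintype.card_fin _).trans hdeg)
  have hb' : ∀ i, b' i = g' (b i) := fun i => by simp [b']
  have hM : Algebra.leftMulMatrix b' (g' x) = (Algebra.leftMulMatrix b x).map g := by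
    ext i k
    rw [Matrix.map_apply, Algebra.leftMulMatrix_eq_repr_mul, Algebra.leftMulMatrix_eq_repr_mul,
      hb', ← map_mul]
    have : g' (x * b k) = ∑ i, g (b.repr (x * b k) i) • b' i := by
      conv_lhs => rw [← b.sum_repr (x * b k), map_sum]
      exact Finset.sum_congr rfl fun i _ => by rw [hsmul, hb']
    rw [this, b'.repr_sum_self]
  show Algebra.norm E (g' x) = g (Algebra.norm F x)
  rw [Algebra.norm_eq_matrix_det b', Algebra.norm_eq_matrix_det b, hM]
  exact (AlgHom.map_det g _).symm

end Fermat.Agent.CarayolReduction
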