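import Fermat.Agent.CarayolReduction.Descent
import Fermat.Agent.CarayolReduction.Main

/-!
# From the finite level theorem on functions to the core statement on `J₀`

`FiniteLevel q N lam` is a statement about functions of level `q²N` with constants in the inertia
field at `q`. For `q ∤ N` it gives `Carayol.CoreStatement q N₀ lam` for every `N₀ ∣ N`, by descent
of inertia-fixed torsion classes to functions and by norms commuting with change of level, and
hence `CoreKilled`, the form of it used in the local argument at `q`.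
-/

set_option autoImplicit false

noncomputable section

open AlgebraicCurve ModularCurve

namespace Fermat.Agent.CarayolReduction

local notation "Qb" => AlgebraicClosure ℚ

/-- The finite level theorem: a function with constants in the inertia field, divisor divisible
by `n` and both norms constant times `n`-th powers has a fixed power which is a constant times an
`n`-th power. -/
def FiniteLevel (q N lam : ℕ) [NeZero q] : Prop :=
  ∀ (M L : ℕ) [NeZero M] [NeZero L], M = q ^ 2 * N → L = q * N →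
    ∀ (h₁ : L * 1 ∣ M) (h₂ : L * q ∣ M),
      ∃ m : ℕ, 0 < m ∧ ∀ (A : ValuationSubring Qb), A.LiesOverPrime q →
        ∀ (k : ℕ) (f : modularFunctionFieldBar M), f ≠ 0 →
          (f : LaurentSeries Qb) ∈ Carayol.levelField (Carayol.inertiaField A) M →
          (∀ v : Place Qb (modularFunctionFieldBar M), ((lam ^ k : ℕ) : ℤ) ∣ v.ord f) →
          (∃ (c : Qb) (g : modularFunctionFieldBar L), g ≠ 0 ∧ c ≠ 0 ∧
            nmAlong (dilHom L M 1 h₁) f = algebraMap Qb _ c * g ^ (lam ^ k)) →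
          (∃ (c : Qb) (g : modularFunctionFieldBar L), g ≠ 0 ∧ c ≠ 0 ∧
            nmAlong (dilHom L M q h₂) f = algebraMap Qb _ c * g ^ (lam ^ k)) →
          ∃ (c : Qb) (h : modularFunctionFieldBar M),
            f ^ m = algebraMap Qb _ c * h ^ (lam ^ k)

/-- Level fields grow with the level. -/
theorem levelField_mono (E : IntermediateField ℚ Qb) {M M' : ℕ} (h : M ∣ M') :
    Carayol.levelField E M ≤ Carayol.levelField E M' :=
  Subfield.closure_mono <| Set.union_subset_union_right _ <| Set.image_mono fun _ hx => by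
    obtain ⟨d, hd, hdvd, rfl⟩ := hx
    exact ⟨d, hd, hdvd.trans h, rfl⟩

/-- The norm of an element of the smaller field is its power by the degree. -/
theorem nmAlong_apply {K F F' : Type*} [Field K] [Field F] [Field F'] [Algebra K F] [Algebra K F']
    (φ : F →ₐ[K] F') (x : F) : nmAlong φ (φ x) = x ^ finrankAlong K φ := by
  let := algebraAlong φ
  exact Algebra.norm_algebraMap x

theorem finrankAlong_pos {K F F' : Type*} [Field K] [Field F] [Field F'] [Algebra K F]
    [Algebra K F'] (φ : F →ₐ[K] F') (h : FiniteAlong K φ) : 0 < finrankAlong K φ := by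
  let := algebraAlong φ
  have : Module.Finite F F' := h
  exact Module.finrank_pos (R := F) (M := F')

variable {M : ℕ} [NeZero M]

omit [NeZero M] in
/-- A class is killed by `m` if the `m`-th power of its function is a constant times an `n`-th
power. -/
theorem smul_mk_eq_zero {n m : ℕ} (hn : n ≠ 0)
    (D : Divisor.degZero (K := Qb) (F := modularFunctionFieldBar M))
    {f : modularFunctionFieldBar M} (hf : f ≠ 0)
    (hD : ∀ v : Place Qb (modularFunctionFieldBar M),
      (n : ℤ) * (D : Divisor Qb (modularFunctionFieldBar M)) v = v.ord f)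
    {c : Qb} {h : modularFunctionFieldBar M} (hch : f ^ m = algebraMap Qb _ c * h ^ n) :
    m • Pic0.mk D = 0 := by
  have hne : algebraMap Qb (modularFunctionFieldBar M) c * h ^ n ≠ 0 := hch ▸ pow_ne_zero m hf
  have hc : algebraMap Qb (modularFunctionFieldBar M) c ≠ 0 := left_ne_zero_of_mul hne
  have hh : h ≠ 0 := fun h0 => hne (by rw [h0, zero_pow hn, mul_zero])
  rw [show m • Pic0.mk D = Pic0.mk (m • D) from (map_nsmul (QuotientAddGroup.mk' _) m D).symm]
  refine (QuotientAddGroup.eq_zero_iff _).mpr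
    (AddSubgroup.mem_addSubgroupOf.mpr ⟨h, hh, fun v => ?_⟩)
  have h1 := congrArg v.ord hch
  rw [FunctionField.ord_pow, v.ord_mul hc (pow_ne_zero n hh), FunctionField.ord_algebraMap,
    FunctionField.ord_pow, zero_add, ← hD] at h1
  rw [AddSubgroupClass.coe_nsmul, Finsupp.smul_apply, nsmul_eq_mul]
  refine mul_left_cancel₀ (show (n : ℤ) ≠ 0 by exact_mod_cast hn) ?_
  rw [← h1]
  ring

variable {q N N' : ℕ} [NeZero q] [NeZero N] [NeZero N']

/-- The square of the two inclusions between levels `qN ⊆ qN'` and `q²N ⊆ q²N'`: norms commute. -/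
theorem nmAlong_raise (hq : q.Prime) (hNN' : N ∣ N') (hqN' : ¬ q ∣ N') {L L' M' : ℕ} [NeZero L]
    [NeZero L'] [NeZero M'] (hM : M = q ^ 2 * N) (hL : L = q * N) (hM' : M' = q ^ 2 * N')
    (hL' : L' = q * N') (d : ℕ) [NeZero d] (hd : d = 1 ∨ d = q) (h : L * d ∣ M)
    (h' : L' * d ∣ M') (hLL' : L * 1 ∣ L') (hMM' : M * 1 ∣ M')
    (f : modularFunctionFieldBar M) :
    nmAlong (dilHom L' M' d h') (dilHom M M' 1 hMM' f) =
      dilHom L L' 1 hLL' (nmAlong (dilHom L M d h) f) := by
  have hqN : ¬ q ∣ N := fun e => hqN' (e.trans hNN')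
  set φ := dilHom L M d h
  set ψ := dilHom L' M' d h'
  set g' := dilHom M M' 1 hMM'
  have hdeg : finrankAlong Qb φ = q ∧ finrankAlong Qb ψ = q := by
    rcases hd with rfl | rfl
    · exact ⟨finrank_dilHom_one hq hqN hL hM h, finrank_dilHom_one hq hqN' hL' hM' h'⟩
    · exact ⟨finrank_dilHom_q hq hqN hL hM h, finrank_dilHom_q hq hqN' hL' hM' h'⟩
  have hgen : IntermediateField.adjoin Qb (Set.range g' ∪ Set.range ψ) = ⊤ := by
    rcases hd with rfl | rfl
    · have hmem : qExpand Qb (q ^ 2) (jqModC Qb) ∈ modularFunctionFieldBar M :=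
        Hecke.qExpand_jC_mem Qb M (by rw [hM]; exact dvd_mul_right _ _)
      refine adjoin_eq_top_of_prime ψ hq hdeg.2 (x := g' ⟨_, hmem⟩) ?_ ⟨_, rfl⟩
      refine not_mem_range_one hq hqN' hL' hM' h' (d := 1) (one_dvd _) _ ?_
      rw [coe_dilHom, qExpand_one_apply]
      exact qExpand_congr (one_mul _).symm _
    · have hmem : qExpand Qb 1 (jqModC Qb) ∈ modularFunctionFieldBar M :=
        Hecke.qExpand_jC_mem Qb M (one_dvd _)
      refine adjoin_eq_top_of_prime ψ hq hdeg.2 (x := g' ⟨_, hmem⟩) ?_ ⟨_, rfl⟩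
      refine not_mem_range_q h' (e := 1) (fun e => hq.one_lt.ne' (Nat.dvd_one.mp e)) _ ?_
      rw [coe_dilHom]
      exact qExpand_one_apply _
  refine nmAlong_comm φ ψ (dilHom L L' 1 hLL') g' (fun y => Subtype.ext ?_)
    (Hecke.finiteAlong_of_isFunctionField φ) (Hecke.finiteAlong_of_isFunctionField ψ)
    (hdeg.1.trans hdeg.2.symm) hgen f
  simp only [φ, ψ, g', coe_dilHom, qExpand_one_apply]

/-- The finite level theorem at level `q²N'` gives the core statement at every `N ∣ N'`. -/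
theorem coreStatement_of_finiteLevel (hq : q.Prime) (hNN' : N ∣ N') (hqN' : ¬ q ∣ N') {lam : ℕ}
    (hlam : lam ≠ 0) (hfin : FiniteLevel q N' lam) : Carayol.CoreStatement q N lam := by
  intro M L _ _ hM hL
  have hqN : ¬ q ∣ N := fun e => hqN' (e.trans hNN')
  have h₁ : L * 1 ∣ M := by rw [hM, hL]; exact ⟨q, by ring⟩
  have h₂ : L * q ∣ M := by rw [hM, hL]; exact ⟨1, by ring⟩
  refine ⟨pushPic (dilHom L M 1 h₁), pushPic (dilHom L M q h₂), fun ℓ x hℓ =>
    ⟨pushPic_hecke hq hqN hL hM 1 (Or.inl rfl) h₁ ℓ hℓ x,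
      pushPic_hecke hq hqN hL hM q (Or.inr rfl) h₂ ℓ hℓ x⟩, ?_⟩
  have : NeZero (q ^ 2 * N') := inferInstance
  have : NeZero (q * N') := inferInstance
  have hLL' : L * 1 ∣ q * N' := by rw [mul_one, hL]; exact mul_dvd_mul_left q hNN'
  have hMM' : M * 1 ∣ q ^ 2 * N' := by rw [mul_one, hM]; exact mul_dvd_mul_left _ hNN'
  have h₁' : q * N' * 1 ∣ q ^ 2 * N' := ⟨q, by ring⟩
  have h₂' : q * N' * q ∣ q ^ 2 * N' := ⟨1, by ring⟩
  obtain ⟨m, hm, hfun⟩ := hfin (q ^ 2 * N') (q * N') rfl rfl h₁' h₂'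
  set i := dilHom M (q ^ 2 * N') 1 hMM'
  have hfin_i : FiniteAlong Qb i := Hecke.finiteAlong_of_isFunctionField i
  refine ⟨finrankAlong Qb i * m, Nat.mul_pos (finrankAlong_pos i hfin_i) hm,
    fun A hA k x hx hI hx₁ hx₂ => ?_⟩
  have hn : lam ^ k ≠ 0 := pow_ne_zero k hlam
  obtain ⟨D, f, rfl, hf, hfE, -, hD⟩ :=
    exists_descended_function (A.inertiaSubgroupIn ℚ) hn hx hI
  have hraise : ∀ (d : ℕ) [NeZero d], d = 1 ∨ d = q → ∀ (h : L * d ∣ M)
      (h' : q * N' * d ∣ q ^ 2 * N'), pushPic (dilHom L M d h) (Pic0.mk D) = 0 →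
      ∃ (c : Qb) (g : modularFunctionFieldBar (q * N')), g ≠ 0 ∧ c ≠ 0 ∧
        nmAlong (dilHom (q * N') (q ^ 2 * N') d h') (i f) =
          algebraMap Qb _ c * g ^ (lam ^ k) := by
    intro d _ hd h h' h0
    obtain ⟨c, g, hg, hc, heq⟩ := norm_eq_of_pushPic_eq_zero (dilHom L M d h) D h0 hf hD
    refine ⟨c, dilHom L (q * N') 1 hLL' g, (_root_.map_ne_zero _).mpr hg, hc, ?_⟩
    rw [nmAlong_raise hq hNN' hqN' hM hL rfl rfl d hd h h' hLL' hMM' f, heq, map_mul, map_pow,
      AlgHom.commutes]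
  have hfE' : ((i f : modularFunctionFieldBar (q ^ 2 * N')) : LaurentSeries Qb) ∈
      Carayol.levelField (Carayol.inertiaField A) (q ^ 2 * N') := by
    rw [coe_dilHom, qExpand_one_apply]
    exact levelField_mono _ ((dvd_mul_right M 1).trans hMM') hfE
  have hord : ∀ v : Place Qb (modularFunctionFieldBar (q ^ 2 * N')),
      ((lam ^ k : ℕ) : ℤ) ∣ v.ord (i f) := fun v => by
    rw [Place.ord_restrictAlong i (Hecke.isIntegral_of_isFunctionField i), ← hD]
    exact Dvd.dvd.mul_left (dvd_mul_right _ _) _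
  obtain ⟨c, h, hch⟩ := hfun A hA k (i f) ((_root_.map_ne_zero i).mpr hf) hfE' hord
    (hraise 1 (Or.inl rfl) h₁ h₁' hx₁) (hraise q (Or.inr rfl) h₂ h₂' hx₂)
  refine smul_mk_eq_zero hn D hf hD (c := c ^ finrankAlong Qb i) (h := nmAlong i h) ?_
  have h1 := congrArg (nmAlong i) hch
  rw [map_pow, nmAlong_apply, map_mul, map_pow,
    ← AlgHom.commutes i c, nmAlong_apply, ← map_pow (algebraMap Qb _), ← pow_mul] at h1
  exact h1

omit [NeZero q] [NeZero N] in
/-- The core statement gives the kernel theorem `CoreKilled`. -/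
theorem coreKilled_of_coreStatement {lam : ℕ} (hq : q.Prime) {L : ℕ} [NeZero L]
    (hM : M = q ^ 2 * N) (hL : L = q * N) (h : Carayol.CoreStatement q N lam) :
    CoreKilled M L q lam := by
  obtain ⟨f, f', hcomm, m, hm, hkill⟩ := h M L hM hL
  obtain ⟨A, hA⟩ := GaloisBasics.exists_liesOverPrime hq
  exact ⟨f, f', fun l hl hlM x => (hcomm ⟨l, hl⟩ x hlM).1,
    fun l hl hlM x => (hcomm ⟨l, hl⟩ x hlM).2, A, hA, m, hm.ne', hkill A hA⟩

theorem exists_eq_sq_mul {M q : ℕ} [NeZero M] (hq : q.Prime) (h : M.factorization q = 2) :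
    ∃ N : ℕ, N ≠ 0 ∧ ¬ q ∣ N ∧ M = q ^ 2 * N ∧ M / q = q * N := by
  refine ⟨M / q ^ 2, ?_, ?_, ?_, ?_⟩
  · intro h0
    have := Nat.ordProj_mul_ordCompl_eq_self M q
    rw [h, h0, mul_zero] at this
    exact NeZero.ne M this.symm
  · have := Nat.not_dvd_ordCompl hq (NeZero.ne M)
    rwa [h] at this
  · have := Nat.ordProj_mul_ordCompl_eq_self M q
    rw [h] at this
    exact this.symm
  · have := Nat.ordProj_mul_ordCompl_eq_self M q
    rw [h] at this
    conv_lhs => rw [← this]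
    rw [sq, mul_assoc, Nat.mul_div_cancel_left _ hq.pos]

/-- It is enough to prove the finite level theorem when `4 ∣ N` (`q` odd) or `9 ∣ N` (`q = 2`). -/
theorem coreStatement_of_finiteLevel_rigid (hq : q.Prime) (hqN : ¬ q ∣ N) {lam : ℕ}
    (hlam : lam ≠ 0)
    (hfin : ∀ (N' : ℕ) [NeZero N'], ¬ q ∣ N' → (q = 2 ∧ 9 ∣ N' ∨ q ≠ 2 ∧ 4 ∣ N') →
      FiniteLevel q N' lam) :
    Carayol.CoreStatement q N lam := by
  rcases eq_or_ne q 2 with h2 | h2
  · have hq9 : ¬ q ∣ 9 * N := fun e => (hq.dvd_mul.mp e).elim (by rw [h2]; norm_num) hqN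
    have : NeZero (9 * N) := inferInstance
    exact coreStatement_of_finiteLevel (N' := 9 * N) hq (dvd_mul_left N 9) hq9 hlam
      (hfin (9 * N) hq9 (Or.inl ⟨h2, dvd_mul_right 9 N⟩))
  · have hq4 : ¬ q ∣ 4 * N := fun e => (hq.dvd_mul.mp e).elim
      (fun e4 => h2 ((Nat.prime_dvd_prime_iff_eq hq Nat.prime_two).mp
        (hq.dvd_of_dvd_pow (show q ∣ 2 ^ 2 by norm_num; exact e4)))) hqN
    have : NeZero (4 * N) := inferInstance
    exact coreStatement_of_finiteLevel (N' := 4 * N) hq (dvd_mul_left N 4) hq4 hlam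
      (hfin (4 * N) hq4 (Or.inr ⟨h2, dvd_mul_right 4 N⟩))

omit [NeZero N] [NeZero q] in
/-- `LevelInputs` from core statements and commutation and factorisation of the Hecke operators at
lower level. -/
theorem levelInputs_of_coreStatement {lam : ℕ}
    (hcomm : ∀ L : ℕ, L ∣ M → ∀ [NeZero L], HeckeOperatorsCommuteBar L)
    (hfac : ∀ (L : ℕ) [NeZero L] (hdvd : L ∣ M),
      TorsionFactors L lam (badSet M) (fun _ h h' => mem_badSet_of_dvd hdvd h h'))
    (hcore : ∀ q N₁ : ℕ, q.Prime → q ≠ lam → ¬ q ∣ N₁ → M = q ^ 2 * N₁ →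
      Carayol.CoreStatement q N₁ lam) :
    LevelInputs M lam := by
  intro q hq hql hfac2
  obtain ⟨N₁, hN₁, hqN₁, hM, hdiv⟩ := exists_eq_sq_mul hq hfac2
  have : NeZero N₁ := ⟨hN₁⟩
  have : NeZero q := ⟨hq.ne_zero⟩
  have : NeZero (M / q) := ⟨by rw [hdiv]; exact Nat.mul_ne_zero hq.ne_zero hN₁⟩
  have hdvd : M / q ∣ M :=
    Nat.div_dvd_of_dvd (by rw [hM, sq, mul_assoc]; exact dvd_mul_right q _)
  exact ⟨inferInstance, hdvd, hcomm _ hdvd, hfac _ hdvd,
    coreKilled_of_coreStatement hq hM hdiv (hcore q N₁ hq hql hqN₁ hM)⟩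

end Fermat.Agent.CarayolReduction
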