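import Fermat.Agent.CarayolReduction.Pushforward
import Fermat.Agent.Carayol.Interface
import Mathlib.LinearAlgebra.LinearIndependent.Basic

/-!
# Descent of fixed torsion classes to functions with constants in the fixed field

For a subgroup `I` of the absolute Galois group with fixed field `E`, an element of the function
field of `X₀(M)` over `ℚ̄` fixed by `I` lies in `levelField E M`, and an `n`-torsion class of
`J₀(M)` fixed by `I` is given by a divisor `D` with `n • D = div f` for an `f` fixed by `I`.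
-/

set_option autoImplicit false

noncomputable section

open AlgebraicCurve ModularCurve

namespace Fermat.Agent.CarayolReduction

local notation "Qb" => AlgebraicClosure ℚ
local notation "Gal" => AlgebraicClosure ℚ ≃ₐ[ℚ] AlgebraicClosure ℚ

section Restrictions

variable (I : Subgroup Gal) (K' : IntermediateField ℚ Qb) [FiniteDimensional ℚ K']

/-- The embeddings of `K'` coming from `I`. -/
def restrSet : Finset (K' →ₐ[ℚ] Qb) :=
  (Set.toFinite {e | ∃ σ ∈ I, (σ : Qb →ₐ[ℚ] Qb).comp K'.val = e}).toFinset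

/-- Membership in `restrSet`. -/
theorem mem_restrSet {e : K' →ₐ[ℚ] Qb} :
    e ∈ restrSet I K' ↔ ∃ σ ∈ I, (σ : Qb →ₐ[ℚ] Qb).comp K'.val = e := by
  exact Set.Finite.mem_toFinset _

open scoped Classical in
/-- A lift of an embedding of `K'` to an element of `I`. -/
def liftRestr (e : K' →ₐ[ℚ] Qb) : Gal :=
  if h : ∃ σ ∈ I, (σ : Qb →ₐ[ℚ] Qb).comp K'.val = e then h.choose else 1

/-- `liftRestr` lifts the embedding to an element of `I`. -/
theorem liftRestr_spec {e : K' →ₐ[ℚ] Qb} (he : e ∈ restrSet I K') :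
    liftRestr I K' e ∈ I ∧ ∀ a : K', liftRestr I K' e a = e a := by
  rw [mem_restrSet] at he
  rw [liftRestr, dif_pos he]
  exact ⟨he.choose_spec.1, fun a => congrArg (fun t : K' →ₐ[ℚ] Qb => t a) he.choose_spec.2⟩

/-- Sums over `restrSet` are invariant under composing with elements of `I`. -/
theorem sum_restrSet_comp {A : Type*} [AddCommMonoid A] (Φ : (K' →ₐ[ℚ] Qb) → A) {σ : Gal}
    (hσ : σ ∈ I) :
    ∑ e ∈ restrSet I K', Φ ((σ : Qb →ₐ[ℚ] Qb).comp e) = ∑ e ∈ restrSet I K', Φ e := by
  refine Finset.sum_nbij' (fun e => (σ : Qb →ₐ[ℚ] Qb).comp e)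
    (fun e => ((σ⁻¹ : Gal) : Qb →ₐ[ℚ] Qb).comp e) ?_ ?_ ?_ ?_ fun e _ => rfl
  · intro e he
    rw [mem_restrSet] at he ⊢
    obtain ⟨τ, hτ, rfl⟩ := he
    exact ⟨σ * τ, mul_mem hσ hτ, AlgHom.ext fun a => rfl⟩
  · intro e he
    rw [mem_restrSet] at he ⊢
    obtain ⟨τ, hτ, rfl⟩ := he
    exact ⟨σ⁻¹ * τ, mul_mem (inv_mem hσ) hτ, AlgHom.ext fun a => rfl⟩
  · intro e _
    exact AlgHom.ext fun a => σ.symm_apply_apply (e a)
  · intro e _
    exact AlgHom.ext fun a => σ.apply_symm_apply (e a)

theorem restrSet_nonempty : (restrSet I K').Nonempty :=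
  ⟨_, (mem_restrSet I K').mpr ⟨1, one_mem I, rfl⟩⟩

/-- Linear independence of the embeddings of `K'`. -/
theorem exists_sum_restrSet_ne_zero {A : Type*} [CommRing A] [IsDomain A] (ι : Qb →+* A)
    (u : (K' →ₐ[ℚ] Qb) → A) (hu : ∀ e ∈ restrSet I K', u e ≠ 0) :
    ∃ a : K', ∑ e ∈ restrSet I K', u e * ι (e a) ≠ 0 := by
  by_contra h
  push Not at h
  have hli : LinearIndependent A (fun e : K' →ₐ[ℚ] Qb => ((fun a : K' => ι (e a)) : K' → A)) :=
    (linearIndependent_monoidHom K' A).comp
      (fun e : K' →ₐ[ℚ] Qb => ((ι : Qb →* A).comp (e : K' →* Qb)))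
      (fun e e' h => AlgHom.ext fun a => ι.injective (DFunLike.congr_fun h a))
  obtain ⟨e, he⟩ := restrSet_nonempty I K'
  refine hu e he (linearIndependent_iff'.mp hli _ u ?_ e he)
  funext a
  simpa [Finset.sum_apply] using h a

end Restrictions

theorem adjoin_finite_le {S : Finset Qb} {K' : IntermediateField ℚ Qb}
    (h : IntermediateField.adjoin ℚ (S : Set Qb) ≤ K') {a : Qb} (ha : a ∈ S) : a ∈ K' :=
  h (IntermediateField.subset_adjoin ℚ _ ha)

/-- Finitely many algebraic numbers generate a finite extension. -/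
theorem finiteDimensional_adjoin_finset (S : Finset Qb) :
    FiniteDimensional ℚ (IntermediateField.adjoin ℚ (S : Set Qb)) := by
  have : Finite ↥(S : Set Qb) := S.finite_toSet.to_subtype
  exact IntermediateField.finiteDimensional_adjoin fun a _ =>
    (AlgebraicClosure.isAlgebraic ℚ).isAlgebraic a |>.isIntegral

section Determining

variable {M : ℕ}

/-- The Galois action on an element of the function field only depends on finitely many
constants. -/
theorem exists_determining (x : modularFunctionFieldBar M) :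
    ∃ S : Finset Qb, ∀ σ τ : Gal, (∀ a ∈ S, σ a = τ a) →
      coeffMap (σ : Qb →+* Qb) (x : LaurentSeries Qb) =
        coeffMap (τ : Qb →+* Qb) (x : LaurentSeries Qb) := by
  classical
  suffices h : ∀ y : LaurentSeries Qb, y ∈ modularFunctionFieldBar M →
      ∃ S : Finset Qb, ∀ σ τ : Gal, (∀ a ∈ S, σ a = τ a) →
        coeffMap (σ : Qb →+* Qb) y = coeffMap (τ : Qb →+* Qb) y from h _ x.2
  clear x
  intro x hx
  rw [mem_laurentBaseChange_iff] at hx
  induction hx using Subfield.closure_induction with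
  | mem y hy =>
      rcases hy with ⟨a, rfl⟩ | ⟨z, hz, rfl⟩
      · refine ⟨{a}, fun σ τ h => ?_⟩
        rw [coeffMap_algebraMap, coeffMap_algebraMap]
        exact congrArg _ (h a (Finset.mem_singleton_self a))
      · exact ⟨∅, fun σ τ _ => by rw [coeffMap_coeffEmb, coeffMap_coeffEmb]⟩
  | one => exact ⟨∅, fun σ τ _ => by simp⟩
  | add a b _ _ ha hb =>
      obtain ⟨S, hS⟩ := ha
      obtain ⟨T, hT⟩ := hb
      refine ⟨S ∪ T, fun σ τ h => ?_⟩
      rw [map_add, map_add, hS σ τ fun c hc => h c (Finset.mem_union_left _ hc),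
        hT σ τ fun c hc => h c (Finset.mem_union_right _ hc)]
  | mul a b _ _ ha hb =>
      obtain ⟨S, hS⟩ := ha
      obtain ⟨T, hT⟩ := hb
      refine ⟨S ∪ T, fun σ τ h => ?_⟩
      rw [map_mul, map_mul, hS σ τ fun c hc => h c (Finset.mem_union_left _ hc),
        hT σ τ fun c hc => h c (Finset.mem_union_right _ hc)]
  | neg a _ ha =>
      obtain ⟨S, hS⟩ := ha
      exact ⟨S, fun σ τ h => by rw [map_neg, map_neg, hS σ τ h]⟩
  | inv a _ ha =>
      obtain ⟨S, hS⟩ := ha
      exact ⟨S, fun σ τ h => by rw [map_inv₀, map_inv₀, hS σ τ h]⟩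

end Determining

section Fixed

variable (M : ℕ) (I : Subgroup Gal)

theorem coeffEmb_mem_levelField (E : IntermediateField ℚ Qb) {x : LaurentSeries ℚ}
    (hx : x ∈ modularFunctionFieldFull M) : coeffEmb Qb x ∈ Carayol.levelField E M := by
  rw [modularFunctionFieldFull] at hx
  induction hx using IntermediateField.adjoin_induction with
  | mem y hy => exact Subfield.subset_closure (Or.inr ⟨y, hy, rfl⟩)
  | algebraMap c =>
      refine Subfield.subset_closure (Or.inl ⟨algebraMap ℚ Qb c, E.algebraMap_mem c, ?_⟩)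
      ext k
      rw [algebraMap_laurentSeries_eq_single, coeffEmb_coeff, algebraMap_apply_eq_single]
      rcases eq_or_ne k 0 with rfl | hk
      · simp [HahnSeries.coeff_single_same]
      · simp [HahnSeries.coeff_single_of_ne hk]
  | add a b _ _ ha hb => rw [map_add]; exact add_mem ha hb
  | mul a b _ _ ha hb => rw [map_mul]; exact mul_mem ha hb
  | inv a _ ha => rw [map_inv₀]; exact inv_mem ha

theorem trace_mem {K' : IntermediateField ℚ Qb} [FiniteDimensional ℚ K'] (a : K') :
    ∑ e ∈ restrSet I K', e a ∈ IntermediateField.fixedField I := by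
  rw [IntermediateField.mem_fixedField_iff]
  intro σ hσ
  rw [map_sum]
  exact sum_restrSet_comp I K' (fun e => e a) hσ

/-- The averaging statement used to descend elements of the linear span. -/
def SpanAverages (A : LaurentSeries Qb) : Prop :=
  ∃ S : Finset Qb, ∀ (K' : IntermediateField ℚ Qb) [FiniteDimensional ℚ K'],
    IntermediateField.adjoin ℚ (S : Set Qb) ≤ K' → ∀ a : K',
      ∑ e ∈ restrSet I K', coeffMap (liftRestr I K' e : Qb →+* Qb) A *
          algebraMap Qb (LaurentSeries Qb) (e a) ∈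
        Carayol.levelField (IntermediateField.fixedField I) M

theorem mem_image_of_mem_closure {y : LaurentSeries Qb}
    (hy : y ∈ Submonoid.closure
      (coeffEmb Qb '' (modularFunctionFieldFull M : Set (LaurentSeries ℚ)))) :
    y ∈ coeffEmb Qb '' (modularFunctionFieldFull M : Set (LaurentSeries ℚ)) := by
  induction hy using Submonoid.closure_induction with
  | mem z hz => exact hz
  | one => exact ⟨1, one_mem _, map_one _⟩
  | mul a b _ _ ha hb =>
      obtain ⟨a, ha, rfl⟩ := ha
      obtain ⟨b, hb, rfl⟩ := hb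
      exact ⟨a * b, mul_mem ha hb, map_mul _ _ _⟩

/-- Averages over `I` of elements of the linear span have constants in the fixed field. -/
theorem spanAverages_of_mem_adjoin {A : LaurentSeries Qb}
    (hA : A ∈ Algebra.adjoin Qb
      (coeffEmb Qb '' (modularFunctionFieldFull M : Set (LaurentSeries ℚ)))) :
    SpanAverages M I A := by
  classical
  rw [← Subalgebra.mem_toSubmodule, Algebra.adjoin_eq_span] at hA
  induction hA using Submodule.span_induction with
  | mem y hy =>
      obtain ⟨z, hz, rfl⟩ := mem_image_of_mem_closure M hy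
      refine ⟨∅, fun K' _ _ a => ?_⟩
      simp_rw [coeffMap_coeffEmb, ← Finset.mul_sum, ← map_sum]
      exact mul_mem (coeffEmb_mem_levelField M _ hz)
        (Subfield.subset_closure (Or.inl ⟨_, trace_mem I a, rfl⟩))
  | zero =>
      refine ⟨∅, fun K' _ _ a => ?_⟩
      simp only [map_zero, zero_mul, Finset.sum_const_zero]
      exact zero_mem _
  | add y z _ _ hy hz =>
      obtain ⟨S, hS⟩ := hy
      obtain ⟨T, hT⟩ := hz
      refine ⟨S ∪ T, fun K' _ hK a => ?_⟩
      simp_rw [map_add, add_mul, Finset.sum_add_distrib]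
      exact add_mem
        (hS K' ((IntermediateField.adjoin.mono ℚ _ _ (by simp)).trans hK) a)
        (hT K' ((IntermediateField.adjoin.mono ℚ _ _ (by simp)).trans hK) a)
  | smul c y _ hy =>
      obtain ⟨S, hS⟩ := hy
      refine ⟨insert c S, fun K' _ hK a => ?_⟩
      have hc : c ∈ K' := adjoin_finite_le hK (Finset.mem_insert_self c S)
      have h := hS K' ((IntermediateField.adjoin.mono ℚ _ _ (by simp)).trans hK) (⟨c, hc⟩ * a)
      convert h using 1
      refine Finset.sum_congr rfl fun e he => ?_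
      rw [Algebra.smul_def, map_mul, coeffMap_algebraMap, map_mul e, map_mul]
      have : liftRestr I K' e c = e ⟨c, hc⟩ := (liftRestr_spec I K' he).2 ⟨c, hc⟩
      rw [show (liftRestr I K' e : Qb →+* Qb) c = e ⟨c, hc⟩ from this]
      ring

/-- Applying a Galois element to coefficients is injective. -/
theorem coeffMap_injective (σ : Gal) : Function.Injective (coeffMap (σ : Qb →+* Qb)) :=
  RingHom.injective _

/-- An element of the function field fixed by `I` has constants in the fixed field of `I`. -/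
theorem mem_levelField_of_fixed (x : modularFunctionFieldBar M)
    (hfix : ∀ σ ∈ I, coeffMap (σ : Qb →+* Qb) (x : LaurentSeries Qb) = x) :
    (x : LaurentSeries Qb) ∈ Carayol.levelField (IntermediateField.fixedField I) M := by
  classical
  obtain ⟨A, hA, B, hB, hx⟩ := IntermediateField.mem_adjoin_iff_div.mp x.2
  by_cases hB0 : B = 0
  · rw [hx, hB0, div_zero]
    exact zero_mem _
  obtain ⟨S, hS⟩ := spanAverages_of_mem_adjoin M I hA
  obtain ⟨T, hT⟩ := spanAverages_of_mem_adjoin M I hB
  set K' := IntermediateField.adjoin ℚ ((S ∪ T : Finset Qb) : Set Qb)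
  have : FiniteDimensional ℚ K' := finiteDimensional_adjoin_finset (S ∪ T)
  obtain ⟨a, ha⟩ := exists_sum_restrSet_ne_zero I K' (algebraMap Qb (LaurentSeries Qb))
    (fun e => coeffMap (liftRestr I K' e : Qb →+* Qb) B)
    (fun e _ h => hB0 (coeffMap_injective _ (h.trans (map_zero _).symm)))
  have hAm := hS K' (IntermediateField.adjoin.mono ℚ _ _ (by simp)) a
  have hBm := hT K' (IntermediateField.adjoin.mono ℚ _ _ (by simp)) a
  have key : ∀ e ∈ restrSet I K', coeffMap (liftRestr I K' e : Qb →+* Qb) A =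
      (x : LaurentSeries Qb) * coeffMap (liftRestr I K' e : Qb →+* Qb) B := by
    intro e he
    have h := hfix _ (liftRestr_spec I K' he).1
    rw [hx, map_div₀] at h
    rw [hx, ← h, div_mul_cancel₀]
    exact fun h0 => hB0 (coeffMap_injective _ (h0.trans (map_zero _).symm))
  have hsum : ∑ e ∈ restrSet I K', coeffMap (liftRestr I K' e : Qb →+* Qb) A *
        algebraMap Qb (LaurentSeries Qb) (e a) =
      (x : LaurentSeries Qb) * ∑ e ∈ restrSet I K', coeffMap (liftRestr I K' e : Qb →+* Qb) B *
        algebraMap Qb (LaurentSeries Qb) (e a) := by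
    rw [Finset.mul_sum]
    exact Finset.sum_congr rfl fun e he => by rw [key e he, mul_assoc]
  rw [hsum] at hAm
  have := div_mem hAm hBm
  rwa [mul_div_cancel_right₀ _ ha] at this

end Fixed

section Classes

variable {M : ℕ}

/-- The semilinear action of a Galois element on the function field. -/
abbrev galAct (M : ℕ) (σ : Gal) : SemilinearAut Qb (modularFunctionFieldBar M) :=
  arithmeticGalois (modularFunctionFieldFull M) σ

/-- The Galois action acts on the coefficients of the expansion. -/
theorem coe_galAct (σ : Gal) (x : modularFunctionFieldBar M) :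
    ((galAct M σ • x : modularFunctionFieldBar M) : LaurentSeries Qb) =
      coeffMap (σ : Qb →+* Qb) (x : LaurentSeries Qb) :=
  rfl

/-- The Galois action on constants. -/
theorem galAct_algebraMap (σ : Gal) (c : Qb) :
    galAct M σ • algebraMap Qb (modularFunctionFieldBar M) c =
      algebraMap Qb (modularFunctionFieldBar M) (σ c) :=
  SemilinearAut.smul_algebraMap _ c

/-- The leading coefficient of the expansion. -/
def leadCoeff (x : modularFunctionFieldBar M) : Qb :=
  (x : LaurentSeries Qb).leadingCoeff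

/-- Leading coefficients are multiplicative. -/
theorem leadCoeff_mul (x y : modularFunctionFieldBar M) :
    leadCoeff (x * y) = leadCoeff x * leadCoeff y :=
  HahnSeries.leadingCoeff_mul _ _

/-- The leading coefficient of a constant is the constant. -/
theorem leadCoeff_algebraMap (c : Qb) :
    leadCoeff (algebraMap Qb (modularFunctionFieldBar M) c) = c := by
  show (algebraMap Qb (LaurentSeries Qb) c).leadingCoeff = c
  rw [algebraMap_laurentSeries_eq_single, HahnSeries.leadingCoeff_of_single]

theorem leadCoeff_one : leadCoeff (1 : modularFunctionFieldBar M) = 1 := by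
  rw [← map_one (algebraMap Qb (modularFunctionFieldBar M)), leadCoeff_algebraMap]

/-- A nonzero function has nonzero leading coefficient. -/
theorem leadCoeff_ne_zero {x : modularFunctionFieldBar M} (hx : x ≠ 0) : leadCoeff x ≠ 0 :=
  HahnSeries.leadingCoeff_ne_zero.mpr fun h => hx (Subtype.ext h)

/-- Leading coefficients respect powers. -/
theorem leadCoeff_pow (x : modularFunctionFieldBar M) (n : ℕ) :
    leadCoeff (x ^ n) = leadCoeff x ^ n := by
  induction n with
  | zero => rw [pow_zero, pow_zero, leadCoeff_one]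
  | succ n ih => rw [pow_succ, pow_succ, leadCoeff_mul, ih]

/-- Leading coefficients are Galois equivariant. -/
theorem leadCoeff_galAct (σ : Gal) (x : modularFunctionFieldBar M) :
    leadCoeff (galAct M σ • x) = σ (leadCoeff x) := by
  rw [leadCoeff, leadCoeff, coe_galAct]
  by_cases hx : (x : LaurentSeries Qb) = 0
  · simp [hx]
  set y := (x : LaurentSeries Qb)
  have hy : coeffMap (σ : Qb →+* Qb) y ≠ 0 :=
    fun h => hx (coeffMap_injective σ (h.trans (map_zero _).symm))
  have ho : (coeffMap (σ : Qb →+* Qb) y).order = y.order := by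
    refine le_antisymm (HahnSeries.order_le_of_coeff_ne_zero ?_)
      (HahnSeries.order_le_of_coeff_ne_zero ?_)
    · rw [coeffMap_coeff]
      exact (map_ne_zero _).mpr (HahnSeries.coeff_order_eq_zero.not.mpr hx)
    · have := HahnSeries.coeff_order_eq_zero.not.mpr hy
      rw [coeffMap_coeff] at this
      exact fun h => this (by rw [h, map_zero])
  rw [HahnSeries.leadingCoeff_eq, HahnSeries.leadingCoeff_eq, ho, coeffMap_coeff]
  rfl

variable [NeZero M]

/-- A function with leading coefficient `1` is determined by its `n`-th power. -/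
theorem eq_of_pow_eq {n : ℕ} (hn : n ≠ 0) {u v : modularFunctionFieldBar M}
    (h : u ^ n = v ^ n) (hu : leadCoeff u = 1) (hv : leadCoeff v = 1) : u = v := by
  have hv0 : v ≠ 0 := fun h0 => by
    rw [h0, leadCoeff, ZeroMemClass.coe_zero, HahnSeries.leadingCoeff_zero] at hv
    exact zero_ne_one hv
  have h1 : (u / v) ^ n = 1 := by rw [div_pow, h, div_self (pow_ne_zero n hv0)]
  have hord : ∀ w : Place Qb (modularFunctionFieldBar M), w.ord (u / v) = 0 := by
    intro w
    have := congrArg w.ord h1
    rw [FunctionField.ord_pow, w.ord_one] at this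
    exact (mul_eq_zero.mp this).resolve_left (by exact_mod_cast hn)
  obtain ⟨c, hc⟩ := exists_const_of_forall_ord_eq_zero hord
  have huv : u = algebraMap Qb _ c * v := by rw [hc, div_mul_cancel₀ _ hv0]
  have : leadCoeff u = c * leadCoeff v := by rw [huv, leadCoeff_mul, leadCoeff_algebraMap]
  rw [hu, hv, mul_one] at this
  rw [huv, ← this, map_one, one_mul]

omit [NeZero M] in
/-- Orders of Galois conjugate functions at conjugate places. -/
theorem ord_galAct (σ : Gal) (f : modularFunctionFieldBar M)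
    (v : Place Qb (modularFunctionFieldBar M)) :
    v.ord (galAct M σ • f) = ((galAct M σ)⁻¹ • v).ord f := by
  have h := SemilinearAut.ord_smul (galAct M σ) ((galAct M σ)⁻¹ • v) f
  rwa [smul_inv_smul] at h

/-- An `n`-torsion class fixed by `I` is represented by a divisor `D` such that `n • D` is the
divisor of a function fixed by `I`. -/
theorem exists_descended_function (I : Subgroup Gal) {n : ℕ} (hn : n ≠ 0) {x : JZero M}
    (hx : n • x = 0) (hI : ∀ σ ∈ I, σ • x = x) :
    ∃ (D : Divisor.degZero (K := Qb) (F := modularFunctionFieldBar M))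
      (f : modularFunctionFieldBar M), Pic0.mk D = x ∧ f ≠ 0 ∧
      (f : LaurentSeries Qb) ∈ Carayol.levelField (IntermediateField.fixedField I) M ∧
      (∀ σ ∈ I, coeffMap (σ : Qb →+* Qb) (f : LaurentSeries Qb) = f) ∧
      ∀ v : Place Qb (modularFunctionFieldBar M),
        (n : ℤ) * (D : Divisor Qb (modularFunctionFieldBar M)) v = v.ord f := by
  classical
  obtain ⟨D, rfl⟩ := Pic0.mk_surjective x
  -- the function
  have hnD : Pic0.mk (n • D) = 0 := by
    rw [← hx]
    exact map_nsmul (QuotientAddGroup.mk' _) n D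
  obtain ⟨f₀, hf₀, hf₀v⟩ :=
    (AddSubgroup.mem_addSubgroupOf.mp ((QuotientAddGroup.eq_zero_iff (n • D)).mp hnD))
  set f := f₀ * algebraMap Qb (modularFunctionFieldBar M) (leadCoeff f₀)⁻¹ with hfdef
  have hc0 : algebraMap Qb (modularFunctionFieldBar M) (leadCoeff f₀)⁻¹ ≠ 0 :=
    (map_ne_zero _).mpr (inv_ne_zero (leadCoeff_ne_zero hf₀))
  have hf : f ≠ 0 := mul_ne_zero hf₀ hc0
  have hflc : leadCoeff f = 1 := by
    rw [hfdef, leadCoeff_mul, leadCoeff_algebraMap, mul_inv_cancel₀ (leadCoeff_ne_zero hf₀)]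
  have hfv : ∀ v : Place Qb (modularFunctionFieldBar M),
      (n : ℤ) * (D : Divisor Qb (modularFunctionFieldBar M)) v = v.ord f := by
    intro v
    rw [hfdef, v.ord_mul hf₀ hc0, FunctionField.ord_algebraMap, add_zero, ← hf₀v v,
      AddSubgroupClass.coe_nsmul, Finsupp.smul_apply, nsmul_eq_mul]
  clear_value f
  clear hfdef
  -- the roots `u σ`
  have hu : ∀ σ ∈ I, ∃ u : modularFunctionFieldBar M,
      u ≠ 0 ∧ leadCoeff u = 1 ∧ galAct M σ • f = f * u ^ n := by
    intro σ hσ
    have h := hI σ hσ
    rw [galois_smul_pic0_def, SemilinearAut.pic0_smul_mk] at h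
    obtain ⟨w, hw, hwv⟩ :=
      AddSubgroup.mem_addSubgroupOf.mp (QuotientAddGroup.eq.mp h.symm)
    have hσf : galAct M σ • f ≠ 0 := (smul_ne_zero_iff_ne _).mpr hf
    have key : ∀ v : Place Qb (modularFunctionFieldBar M),
        v.ord (galAct M σ • f / (f * w ^ n)) = 0 := by
      intro v
      have hwv' := hwv v
      rw [AddSubgroup.coe_add, NegMemClass.coe_neg, Finsupp.add_apply, Finsupp.neg_apply,
        SemilinearAut.coe_degZeroSMulHom, SemilinearAut.divisor_smul_apply] at hwv'
      rw [div_eq_mul_inv, v.ord_mul hσf (inv_ne_zero (mul_ne_zero hf (pow_ne_zero n hw))),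
        v.ord_inv, v.ord_mul hf (pow_ne_zero n hw), FunctionField.ord_pow, ord_galAct, ← hfv,
        ← hfv, ← hwv']
      ring
    obtain ⟨c, hc⟩ := exists_const_of_forall_ord_eq_zero key
    have heq : galAct M σ • f = algebraMap Qb _ c * (f * w ^ n) := by
      rw [hc, div_mul_cancel₀ _ (mul_ne_zero hf (pow_ne_zero n hw))]
    have hlc : c * leadCoeff w ^ n = 1 := by
      have := congrArg leadCoeff heq
      rw [leadCoeff_galAct, leadCoeff_mul, leadCoeff_mul, leadCoeff_algebraMap, leadCoeff_pow,
        hflc, map_one, one_mul] at this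
      exact this.symm
    refine ⟨w * algebraMap Qb _ (leadCoeff w)⁻¹,
      mul_ne_zero hw ((map_ne_zero _).mpr (inv_ne_zero (leadCoeff_ne_zero hw))),
      by rw [leadCoeff_mul, leadCoeff_algebraMap, mul_inv_cancel₀ (leadCoeff_ne_zero hw)], ?_⟩
    rw [heq, eq_inv_of_mul_eq_one_left hlc, mul_pow, ← map_pow, inv_pow]
    ring
  choose! u hu0 hulc huf using hu
  have hcoc : ∀ σ ∈ I, ∀ τ ∈ I, u (σ * τ) = galAct M σ • u τ * u σ := by
    intro σ hσ τ hτ
    refine eq_of_pow_eq hn ?_ (hulc _ (mul_mem hσ hτ)) ?_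
    · refine mul_left_cancel₀ hf ?_
      rw [← huf _ (mul_mem hσ hτ)]
      rw [show galAct M (σ * τ) = galAct M σ * galAct M τ from map_mul _ _ _, mul_smul,
        huf τ hτ, smul_mul', smul_pow', huf σ hσ, mul_pow]
      ring
    · rw [leadCoeff_mul, leadCoeff_galAct, hulc τ hτ, map_one, hulc σ hσ, one_mul]
  obtain ⟨S, hS⟩ := exists_determining f
  set K' := IntermediateField.adjoin ℚ (S : Set Qb)
  have : FiniteDimensional ℚ K' := finiteDimensional_adjoin_finset S
  have hdet : ∀ σ ∈ I, ∀ τ ∈ I, (∀ a : K', σ (a : Qb) = τ (a : Qb)) → u σ = u τ := by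
    intro σ hσ τ hτ h
    refine eq_of_pow_eq hn (mul_left_cancel₀ hf ?_) (hulc σ hσ) (hulc τ hτ)
    rw [← huf σ hσ, ← huf τ hτ]
    refine Subtype.ext ?_
    rw [coe_galAct, coe_galAct]
    exact hS σ τ fun a ha => h ⟨a, IntermediateField.subset_adjoin ℚ _ ha⟩
  obtain ⟨a, ha⟩ := exists_sum_restrSet_ne_zero I K'
    (algebraMap Qb (modularFunctionFieldBar M)) (fun e => u (liftRestr I K' e))
    (fun e he => hu0 _ (liftRestr_spec I K' he).1)
  set h := ∑ e ∈ restrSet I K', u (liftRestr I K' e) * algebraMap Qb _ (e a) with hhdef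
  have hinv : ∀ σ ∈ I, galAct M σ • h * u σ = h := by
    intro σ hσ
    rw [hhdef, Finset.smul_sum, Finset.sum_mul]
    refine Eq.trans ?_ (sum_restrSet_comp I K'
      (fun e => u (liftRestr I K' e) * algebraMap Qb _ (e a)) hσ)
    refine Finset.sum_congr rfl fun e he => ?_
    have he' : (σ : Qb →ₐ[ℚ] Qb).comp e ∈ restrSet I K' := by
      obtain ⟨τ, hτ, rfl⟩ := (mem_restrSet I K').mp he
      exact (mem_restrSet I K').mpr ⟨σ * τ, mul_mem hσ hτ, AlgHom.ext fun _ => rfl⟩
    obtain ⟨hl, hl'⟩ := liftRestr_spec I K' he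
    obtain ⟨hm, hm'⟩ := liftRestr_spec I K' he'
    have hu' : u (σ * liftRestr I K' e) = u (liftRestr I K' ((σ : Qb →ₐ[ℚ] Qb).comp e)) := by
      refine hdet _ (mul_mem hσ hl) _ hm fun b => ?_
      rw [hm' b, AlgEquiv.mul_apply, hl' b]
      rfl
    rw [← hu', hcoc σ hσ _ hl, smul_mul', galAct_algebraMap]
    show _ = _ * algebraMap Qb _ (σ (e a))
    ring
  have hh : h ≠ 0 := ha
  obtain ⟨Eh, hEh, hEhdeg⟩ := HasPrincipalDivisors.exists_divisor (K := Qb) h hh
  refine ⟨D + ⟨Eh, hEhdeg⟩, f * h ^ n, ?_, mul_ne_zero hf (pow_ne_zero n hh), ?_⟩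
  · rw [Pic0.mk_add, add_eq_left]
    exact (QuotientAddGroup.eq_zero_iff _).mpr
      (AddSubgroup.mem_addSubgroupOf.mpr ⟨h, hh, hEh⟩)
  have hfix : ∀ σ ∈ I, coeffMap (σ : Qb →+* Qb) ((f * h ^ n : modularFunctionFieldBar M) :
      LaurentSeries Qb) = ((f * h ^ n : modularFunctionFieldBar M) : LaurentSeries Qb) := by
    intro σ hσ
    rw [← coe_galAct]
    congr 1
    rw [smul_mul', smul_pow', huf σ hσ, mul_assoc, ← mul_pow, mul_comm (u σ), hinv σ hσ]
  refine ⟨mem_levelField_of_fixed M I _ hfix, hfix, fun v => ?_⟩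
  rw [AddSubgroup.coe_add, Finsupp.add_apply, mul_add, v.ord_mul hf (pow_ne_zero n hh),
    FunctionField.ord_pow, hfv, hEh]

end Classes

end Fermat.Agent.CarayolReduction
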