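import Mathlib.LinearAlgebra.Charpoly.Basic
import Mathlib.LinearAlgebra.Dimension.StrongRankCondition
import Mathlib.LinearAlgebra.FreeModule.Finite.Basic
import Fermat.Prelude.Def_GaloisRep_LocalConditions

/-!
# Common fixed vectors of unipotent inertia

A group of endomorphisms of a free rank two module over a domain, all of whose elements are
unipotent, has a common nonzero fixed vector.
-/

set_option autoImplicit false

namespace Fermat.Agent.CarayolReduction

/-- If `f`, `g` and `(1 + f) (1 + g) - 1` square to zero then `f` and `g` anticommute. -/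
theorem mul_add_mul_eq_zero {R : Type*} [Ring R] {f g : R} (hf : f * f = 0) (hg : g * g = 0)
    (h : ((1 + f) * (1 + g) - 1) * ((1 + f) * (1 + g) - 1) = 0) : f * g + g * f = 0 := by
  have e : (1 + f) * (1 + g) - 1 = f + g + f * g := by
    rw [add_mul, one_mul, mul_add, mul_one]; abel
  rw [e] at h
  have h1 : f * g + g * f + g * f * g + f * g * f + f * g * f * g = 0 := by
    rw [← h]
    simp only [mul_add, add_mul, ← mul_assoc, hf, zero_add]
    rw [mul_assoc f g g, hg, mul_zero]
    abel
  have h2 : f * g * f + f * g * f * g = 0 := by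
    have := congrArg (f * ·) h1
    simp only [mul_add, ← mul_assoc, hf, zero_mul, mul_zero, zero_add, add_zero] at this
    exact this
  have h3 : f * g + g * f + g * f * g = 0 := by
    have : f * g + g * f + g * f * g + (f * g * f + f * g * f * g) = 0 := by
      rw [← h1]; abel
    rwa [h2, add_zero] at this
  have h4 : g * f * g = 0 := by
    have := congrArg (g * ·) h3
    simp only [mul_add, ← mul_assoc, hg, zero_mul, mul_zero, add_zero] at this
    exact this
  rwa [h4, add_zero] at h3

variable {A : Type*} [CommRing A] [IsDomain A] {V : Type*} [AddCommGroup V] [Module A V]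
  [Module.Free A V] [Module.Finite A V]

theorem exists_dependent_of_apply_eq_zero (hV : Module.finrank A V = 2) {f : Module.End A V}
    (hf : f ≠ 0) {x y : V} (hx : f x = 0) (hy : f y = 0) :
    ∃ a b : A, (a ≠ 0 ∨ b ≠ 0) ∧ a • x + b • y = 0 := by
  obtain ⟨z, hz⟩ : ∃ z, f z ≠ 0 := by
    by_contra hne
    push Not at hne
    exact hf (LinearMap.ext hne)
  have hdep : ¬ LinearIndependent A ![x, y, z] := fun h => by
    have := h.fintype_card_le_finrank
    rw [hV] at this
    simp at this
  obtain ⟨c, hc, i, hi⟩ := Fintype.not_linearIndependent_iff.mp hdep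
  have hsum : c 0 • x + c 1 • y + c 2 • z = 0 := by
    simpa [Fin.sum_univ_three] using hc
  have h2 : c 2 = 0 := by
    have := congrArg f hsum
    simp only [map_add, map_smul, hx, hy, smul_zero, zero_add, map_zero] at this
    exact (smul_eq_zero.mp this).resolve_right hz
  refine ⟨c 0, c 1, ?_, by simpa [h2] using hsum⟩
  by_contra hne
  push Not at hne
  apply hi
  fin_cases i
  · exact hne.1
  · exact hne.2
  · exact h2

variable {G : Type*} [Group G]

/-- A group acting unipotently on a free module of rank two over a domain fixes a nonzero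
vector. -/
theorem exists_fixed_vector (hV : Module.finrank A V = 2) (r : G →* Module.End A V)
    (H : Subgroup G) (hH : ∀ σ ∈ H, (r σ - 1) * (r σ - 1) = 0) :
    ∃ v : V, v ≠ 0 ∧ ∀ σ ∈ H, r σ v = v := by
  by_cases hall : ∀ σ ∈ H, r σ = 1
  · have : Nontrivial V := Module.nontrivial_of_finrank_pos (R := A) (by omega)
    obtain ⟨v, hv⟩ := exists_ne (0 : V)
    exact ⟨v, hv, fun σ hσ => by rw [hall σ hσ]; rfl⟩
  push Not at hall
  obtain ⟨σ, hσ, hσ1⟩ := hall
  set f : Module.End A V := r σ - 1 with hfdef
  have hf0 : f ≠ 0 := sub_ne_zero.mpr hσ1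
  obtain ⟨v, hv⟩ : ∃ v, f v ≠ 0 := by
    by_contra hne
    push Not at hne
    exact hf0 (LinearMap.ext hne)
  refine ⟨f v, hv, fun τ hτ => ?_⟩
  set g : Module.End A V := r τ - 1 with hgdef
  have hff : f * f = 0 := hH σ hσ
  have hgg : g * g = 0 := hH τ hτ
  have hfg : f * g + g * f = 0 := by
    refine mul_add_mul_eq_zero hff hgg ?_
    have h := hH (σ * τ) (H.mul_mem hσ hτ)
    rw [map_mul] at h
    simpa [hfdef, hgdef] using h
  have hw : f (f v) = 0 := by rw [← Module.End.mul_apply, hff, LinearMap.zero_apply]
  have hgw : f (g (f v)) = 0 := by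
    have := LinearMap.congr_fun hfg (f v)
    simp only [LinearMap.add_apply, Module.End.mul_apply, hw, map_zero, add_zero,
      LinearMap.zero_apply] at this
    exact this
  have hggw : g (g (f v)) = 0 := by rw [← Module.End.mul_apply, hgg, LinearMap.zero_apply]
  obtain ⟨a, b, hab, he⟩ := exists_dependent_of_apply_eq_zero hV hf0 hw hgw
  have hg0 : g (f v) = 0 := by
    have := congrArg g he
    rw [map_add, map_smul, map_smul, hggw, smul_zero, add_zero, map_zero] at this
    rcases smul_eq_zero.mp this with ha | h0
    · rw [ha, zero_smul, zero_add] at he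
      exact (smul_eq_zero.mp he).resolve_left (hab.resolve_left fun h => h ha)
    · exact h0
  rw [hgdef, LinearMap.sub_apply, Module.End.one_apply, sub_eq_zero] at hg0
  exact hg0

end Fermat.Agent.CarayolReduction

namespace Fermat.Agent.CarayolReduction

open Polynomial

variable {A : Type} [CommRing A] [IsDomain A] [IsLocalRing A]

/-- A representation which is unipotent on inertia at `q` has, at every place over `q`, a nonzero
vector fixed by inertia. -/
theorem exists_inertia_fixed_vector (ρ : GaloisRepAdic A) {q : ℕ}
    (h : ρ.IsUnipotentOnInertiaAt q) {P : ValuationSubring (AlgebraicClosure ℚ)}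
    (hP : P.LiesOverPrime q) :
    ∃ v : ρ.V, v ≠ 0 ∧ ∀ σ ∈ P.inertiaSubgroupIn ℚ, ρ.ρ σ v = v := by
  refine exists_fixed_vector ρ.finrank_eq ρ.ρ _ fun σ hσ => ?_
  have := LinearMap.aeval_self_charpoly (ρ.ρ σ)
  rw [h P hP σ hσ] at this
  simpa [pow_two] using this

end Fermat.Agent.CarayolReduction
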