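import Fermat.Agent.RepTheory.GaloisBridge
import Fermat.Agent.CarayolReduction.Unipotent
import Mathlib.RingTheory.DiscreteValuationRing.Basic

/-!
# Tate modules of abelian groups and inertia-fixed vectors

`tateModule J lam` is the group of compatible systems of `lam`-power torsion elements of `J`.
If a residually absolutely irreducible representation maps nontrivially and equivariantly to the
Tate module and every vector fixed by inertia at `q` maps to zero, then the representation is not
unipotent on inertia at `q`.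
-/

set_option autoImplicit false

namespace Fermat.Agent.CarayolReduction

variable {J : Type*} [AddCommGroup J]

variable (J) in
/-- Compatible systems of `lam`-power torsion elements. -/
def tateModule (lam : ℕ) : AddSubgroup (ℕ → J) where
  carrier := {x | x 0 = 0 ∧ ∀ n, lam • x (n + 1) = x n}
  zero_mem' := ⟨rfl, fun _ => smul_zero _⟩
  add_mem' {x y} hx hy := ⟨by simp [hx.1, hy.1], fun n => by simp [smul_add, hx.2 n, hy.2 n]⟩
  neg_mem' {x} hx := ⟨by simp [hx.1], fun n => by simp [hx.2 n]⟩

variable {lam : ℕ}

/-- `lam ^ k` sends the component `n + k` to the component `n`. -/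
theorem tateModule_pow_smul_add (x : tateModule J lam) (n : ℕ) :
    ∀ k : ℕ, lam ^ k • x.1 (n + k) = x.1 n
  | 0 => by simp
  | k + 1 => by
    rw [pow_succ, mul_smul, ← add_assoc, x.2.2, tateModule_pow_smul_add x n k]

/-- The component `n` is killed by `lam ^ n`. -/
theorem tateModule_pow_smul (x : tateModule J lam) (n : ℕ) : lam ^ n • x.1 n = 0 := by
  have := tateModule_pow_smul_add x 0 n
  rwa [zero_add, x.2.1] at this

/-- The Tate module has no `lam`-power torsion. -/
theorem tateModule_eq_zero_of_pow_smul {x : tateModule J lam} {k : ℕ} (h : lam ^ k • x = 0) :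
    x = 0 := by
  refine Subtype.ext (funext fun n => ?_)
  rw [← tateModule_pow_smul_add x n k]
  exact congrFun (congrArg Subtype.val h) (n + k)

/-- A Tate vector whose components are all killed by a fixed positive integer is zero. -/
theorem tateModule_eq_zero_of_bounded (hlam : lam.Prime) {x : tateModule J lam} {m : ℕ}
    (hm : m ≠ 0) (h : ∀ n, m • x.1 n = 0) : x = 0 := by
  obtain ⟨c, u, hu, rfl⟩ := Nat.exists_eq_pow_mul_and_not_dvd hm lam hlam.ne_one
  refine Subtype.ext (funext fun n => ?_)
  have h1 : u • x.1 n = 0 := by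
    rw [← tateModule_pow_smul_add x n c, ← mul_smul, mul_comm]
    exact h _
  have h2 := tateModule_pow_smul x n
  have hcop : Nat.Coprime (lam ^ n) u := Nat.Coprime.pow_left _ (hlam.coprime_iff_not_dvd.mpr hu)
  have ha : addOrderOf (x.1 n) ∣ 1 := by
    rw [← hcop.gcd_eq_one]
    exact Nat.dvd_gcd (addOrderOf_dvd_of_nsmul_eq_zero h2) (addOrderOf_dvd_of_nsmul_eq_zero h1)
  exact AddMonoid.addOrderOf_eq_one_iff.mp (Nat.dvd_one.mp ha)

/-- Functoriality of the Tate module. -/
def tateMap {J' : Type*} [AddCommGroup J'] (f : J →+ J') :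
    tateModule J lam →+ tateModule J' lam where
  toFun x := ⟨fun n => f (x.1 n), by simp [x.2.1], fun n => by
    show lam • f _ = f _
    rw [← map_nsmul, x.2.2]⟩
  map_zero' := Subtype.ext (funext fun _ => map_zero f)
  map_add' x y := Subtype.ext (funext fun n => map_add f _ _)

/-- `tateMap f` applies `f` componentwise. -/
@[simp]
theorem tateMap_apply {J' : Type*} [AddCommGroup J'] (f : J →+ J') (x : tateModule J lam) (n : ℕ) :
    (tateMap f x).1 n = f (x.1 n) := rfl

section DVR

variable {A : Type} [CommRing A] [IsDomain A] [IsDiscreteValuationRing A]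

/-- In a discrete valuation ring every nonzero element divides a power of an element of the
maximal ideal. -/
theorem exists_dvd_pow {x c : A} (hx : x ∈ IsLocalRing.maximalIdeal A) (hc : c ≠ 0) :
    ∃ k : ℕ, c ∣ x ^ k := by
  obtain ⟨π, hπ⟩ := IsDiscreteValuationRing.exists_irreducible A
  obtain ⟨k, hk⟩ := IsDiscreteValuationRing.associated_pow_irreducible hc hπ
  refine ⟨k, hk.dvd.trans (pow_dvd_pow_of_dvd ?_ k)⟩
  rw [hπ.maximalIdeal_eq, Ideal.mem_span_singleton] at hx
  exact hx

variable {M : Type*} [AddCommGroup M] [Module A M]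

/-- An additive map to a Tate module killing `c • v` for all `v` (with `c ≠ 0`) is zero. -/
theorem map_eq_zero_of_smul (hl : (lam : A) ∈ IsLocalRing.maximalIdeal A)
    (φ : M →+ tateModule J lam) {c : A} (hc : c ≠ 0) (h : ∀ v : M, φ (c • v) = 0) : φ = 0 := by
  obtain ⟨k, d, hd⟩ := exists_dvd_pow hl hc
  refine AddMonoidHom.ext fun v => tateModule_eq_zero_of_pow_smul (k := k) ?_
  rw [← map_nsmul, ← Nat.cast_smul_eq_nsmul A, Nat.cast_pow, hd, mul_smul]
  exact h _

end DVR

variable {A : Type} [CommRing A] [IsDomain A] [IsDiscreteValuationRing A]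
variable [DistribMulAction (AlgebraicClosure ℚ ≃ₐ[ℚ] AlgebraicClosure ℚ) J]

/-- If `ρ` is residually absolutely irreducible, maps nontrivially and equivariantly to a Tate
module and all vectors fixed by inertia at a place over `q` map to zero, then `ρ` is not
unipotent on inertia at `q`. -/
theorem not_isUnipotentOnInertiaAt_of_map (ρ : GaloisRepAdic A)
    (hirr : ρ.residual.IsAbsolutelyIrreducible) (hl : (lam : A) ∈ IsLocalRing.maximalIdeal A)
    (j : ρ.V →+ tateModule J lam)
    (hj : ∀ (σ : AlgebraicClosure ℚ ≃ₐ[ℚ] AlgebraicClosure ℚ) (v : ρ.V) (n : ℕ),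
      (j (ρ.ρ σ v)).1 n = σ • (j v).1 n)
    (hj0 : j ≠ 0) {q : ℕ} {P : ValuationSubring (AlgebraicClosure ℚ)} (hP : P.LiesOverPrime q)
    (hfix : ∀ v : ρ.V, (∀ σ ∈ P.inertiaSubgroupIn ℚ, ρ.ρ σ v = v) → j v = 0) :
    ¬ ρ.IsUnipotentOnInertiaAt q := by
  intro huni
  obtain ⟨w, hw0, hwfix⟩ := exists_inertia_fixed_vector ρ huni hP
  let W : Submodule A ρ.V :=
    { carrier := {v | ∀ a : A, j (a • v) = 0}
      zero_mem' := fun a => by rw [smul_zero, map_zero]
      add_mem' := fun {x y} hx hy a => by rw [smul_add, map_add, hx a, hy a, add_zero]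
      smul_mem' := fun c x hx a => by rw [smul_smul]; exact hx _ }
  have hwW : w ∈ W := fun a => hfix _ fun σ hσ => by rw [map_smul, hwfix σ hσ]
  have hstab : ∀ e : Module.End A ρ.V, ∀ x ∈ W, e x ∈ W := by
    intro e
    have he : e ∈ Submodule.span A (Set.range ρ.ρ) := by
      rw [RepTheory.adic_span_eq_top ρ hirr]; exact Submodule.mem_top
    induction he using Submodule.span_induction with
    | mem x hx =>
      obtain ⟨σ, rfl⟩ := hx
      intro v hv a
      refine Subtype.ext (funext fun n => ?_)
      rw [← map_smul, hj, hv a]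
      exact smul_zero σ
    | zero => intro v _; exact W.zero_mem
    | add x y _ _ hx hy => intro v hv; exact W.add_mem (hx v hv) (hy v hv)
    | smul c x _ hx => intro v hv; exact W.smul_mem c (hx v hv)
  let b := Module.finBasisOfFinrankEq A ρ.V ρ.finrank_eq
  obtain ⟨i, hi⟩ : ∃ i, b.coord i w ≠ 0 := by
    by_contra hne
    push Not at hne
    exact hw0 (b.forall_coord_eq_zero_iff.mp hne)
  refine hj0 (map_eq_zero_of_smul hl j hi fun v => ?_)
  have := hstab ((b.coord i).smulRight v) w hwW 1
  rwa [one_smul, LinearMap.smulRight_apply] at this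

end Fermat.Agent.CarayolReduction
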