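import Fermat.Agent.HeckeDatum.JacobianInput
import Fermat.Agent.HeckeEigen.Integral
import Fermat.Agent.CuspIntStr.Main
import Fermat.Agent.CarayolReduction.TateMap
import Fermat.Prelude.Def_CuspForm_Newforms

/-!
# Eigen-maps into Tate modules of lower level

A nonzero additive map from an eigen-module to the Tate module of `J₀(N')` intertwining the
eigenvalues of an eigenform `g` of level `M` (`N' ∣ M`) with the Hecke operators shows that the
good eigensystem of `g` occurs at level `N'`.
-/

set_option autoImplicit false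

noncomputable section

namespace Fermat.Agent.CarayolReduction

open ModularCurve HeckeDatum CongruenceSubgroup ModularFormClass

/-- The primes dividing `M`. -/
def badSet (M : ℕ) : Set ℕ := {q | q.Prime ∧ q ∣ M}

/-- A prime dividing a divisor of `M` is bad for `M`. -/
theorem mem_badSet_of_dvd {M N' : ℕ} (h : N' ∣ M) {q : ℕ} (hq : q.Prime) (hqN : q ∣ N') :
    q ∈ badSet M :=
  ⟨hq, hqN.trans h⟩

/-- A number not dividing `M` is not bad for `M`. -/
theorem not_mem_badSet {M l : ℕ} (h : ¬ l ∣ M) : l ∉ badSet M := fun h' => h h'.2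

/-- `evalForms` sends the variable of a prime to its Hecke operator. -/
theorem evalForms_X {N : ℕ} [NeZero N] {S : Set ℕ}
    (hNS : ∀ q : ℕ, q.Prime → q ∣ N → q ∈ S) (ℓ : AwayPrimes S) :
    evalForms hNS (MvPolynomial.X ℓ) =
      CuspForm.heckeAlgebra.T ℓ.1.2 (fun h => ℓ.2 (hNS _ ℓ.1.2 h)) ℓ.2 := by
  simp [evalForms]

variable {M N' : ℕ} [NeZero M] [NeZero N'] {lam : ℕ}

/-- The Hecke operators on the `lam`-power torsion of `J₀(N')` factor through the Hecke algebra
of cusp forms away from `S`. -/
def TorsionFactors (N' lam : ℕ) [NeZero N'] (S : Set ℕ)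
    (hNS : ∀ q : ℕ, q.Prime → q ∣ N' → q ∈ S) : Prop :=
  ∀ P : AwayPoly S, evalForms hNS P = 0 → ∀ (k : ℕ) (x : JZero N'), lam ^ k • x = 0 →
    (letI := heckeModuleBar N'; toHeckeAlg S P • x) = 0

/-- Faithfulness on the Jacobian gives the factorisation. -/
theorem torsionFactors_of_jacobianFaithful {S : Set ℕ}
    {hNS : ∀ q : ℕ, q.Prime → q ∣ N' → q ∈ S} (h : JacobianFaithful lam hNS) :
    TorsionFactors N' lam S hNS :=
  h.smul_eq_zero

/-- An intertwining nonzero map into the Tate module at level `N'` puts the eigensystem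
at level `N'`. -/
theorem goodEigensystemOccursAt_of_map {g : CuspForm (Gamma0 M) 2}
    (hg : g.IsNormalizedEigenform) (hdvd : N' ∣ M) (hcomm : HeckeOperatorsCommuteBar N')
    (hfac : TorsionFactors N' lam (badSet M) fun _ h h' => mem_badSet_of_dvd hdvd h h')
    {A : Type} [CommRing A] [IsDomain A] [IsDiscreteValuationRing A]
    (hl : (lam : A) ∈ IsLocalRing.maximalIdeal A)
    (c : (HeckeEigen.eigenChar hg (badSet M)).range →+* A) (hc : Function.Injective c)
    {V : Type*} [AddCommGroup V] [Module A V]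
    (φ : V →+ tateModule (JZero N') lam) (hφ0 : φ ≠ 0)
    (hφ : ∀ (l : ℕ) (hl' : l.Prime) (hlM : ¬ l ∣ M) (v : V) (n : ℕ),
      (φ (c ((HeckeEigen.eigenChar hg (badSet M)).rangeRestrict
          (CuspForm.heckeAlgebra.T hl' hlM (not_mem_badSet hlM))) • v)).1 n =
        heckeOperatorBar N' ⟨l, hl'⟩ ((φ v).1 n)) :
    CuspForm.GoodEigensystemOccursAt g N' := by
  let χ := HeckeEigen.eigenChar hg (badSet M)
  have hM : ∀ q : ℕ, q.Prime → q ∣ M → q ∈ badSet M := fun q h h' => ⟨h, h'⟩
  have hN : ∀ q : ℕ, q.Prime → q ∣ N' → q ∈ badSet M := fun q h h' => mem_badSet_of_dvd hdvd h h'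
  let θ : AwayPoly (badSet M) →+* A := (c.comp χ.rangeRestrict).comp (evalForms hM)
  let := heckeModuleBar N'
  have hkey : ∀ (P : AwayPoly (badSet M)) (v : V) (n : ℕ),
      (φ (θ P • v)).1 n = toHeckeAlg (badSet M) P • (φ v).1 n := by
    intro P
    induction P using MvPolynomial.induction_on with
    | C a =>
      intro v n
      have e1 : θ (MvPolynomial.C a) = (a : A) := by
        rw [show (MvPolynomial.C a : AwayPoly (badSet M)) = (a : AwayPoly (badSet M)) from
          (map_intCast MvPolynomial.C a), map_intCast]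
      have e2 : toHeckeAlg (badSet M) (MvPolynomial.C a) = MvPolynomial.C a := by
        simp [toHeckeAlg]
      rw [e1, e2, Int.cast_smul_eq_zsmul, map_zsmul]
      exact (heckeModuleBar_C_smul (N := N') a _).symm
    | add p p' hp hp' =>
      intro v n
      rw [map_add, map_add, add_smul, add_smul, map_add, AddSubgroup.coe_add, Pi.add_apply, hp,
        hp']
    | mul_X p i hp =>
      intro v n
      have hlM : ¬ (i.1 : ℕ) ∣ M := fun h => i.2 ⟨i.1.2, h⟩
      rw [map_mul, map_mul, mul_smul, mul_smul, hp]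
      congr 1
      have e2 : toHeckeAlg (badSet M) (MvPolynomial.X i) = heckeGen i.1 := by
        simp [toHeckeAlg, heckeGen]
      rw [e2, heckeModuleBar_heckeGen_smul hcomm]
      have := hφ i.1 i.1.2 hlM v n
      simpa [θ, χ, evalForms_X] using this
  have hker : ∀ P : AwayPoly (badSet M), evalForms hN P = 0 →
      χ (evalForms hM P) = 0 := by
    intro P hP
    by_contra hne
    have hθ : θ P ≠ 0 := by
      intro h0
      have hc0 : χ.rangeRestrict (evalForms hM P) = 0 := hc (by rw [map_zero]; exact h0)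
      exact hne (congrArg Subtype.val hc0)
    refine hφ0 (map_eq_zero_of_smul hl φ hθ fun v => Subtype.ext (funext fun n => ?_))
    rw [hkey]
    exact hfac P hP n _ (tateModule_pow_smul _ n)
  let χ' : CuspForm.heckeAlgebra N' 2 (badSet M) →+* ℂ :=
    RingHom.liftOfRightInverse (evalForms hN) _
      (Function.rightInverse_surjInv (evalForms_surjective hN))
      ⟨χ.comp (evalForms hM), fun P hP => RingHom.mem_ker.mpr (hker P (RingHom.mem_ker.mp hP))⟩
  have hχ' : ∀ P, χ' (evalForms hN P) = χ (evalForms hM P) := fun P =>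
    RingHom.liftOfRightInverse_comp_apply _ _ _ _ P
  obtain ⟨h, hh, e⟩ :=
    HeckeEigen.exists_eigenform_of_ringHom (CuspIntStr.hasIntegralStructure N' 2) χ'
  refine ⟨h, hh, fun l hl' hlM => ?_⟩
  have := hχ' (MvPolynomial.X ⟨⟨l, hl'⟩, not_mem_badSet hlM⟩)
  rw [evalForms_X, evalForms_X, ← e] at this
  simpa [χ, HeckeEigen.eigenChar_T] using this

end Fermat.Agent.CarayolReduction
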