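import Fermat.Agent.HeckeAlg.DVRExtension
import Fermat.Agent.HeckeEigen.Integral
import Fermat.Agent.HeckeDatum.JacobianInput
import Fermat.Agent.CarayolReduction.Occurrence
import Fermat.Agent.EichlerPeriods.HeckeFinite
import Mathlib.FieldTheory.IsAlgClosed.AlgebraicClosure
import Mathlib.FieldTheory.IsAlgClosed.Basic

/-!
# Extending coefficient embeddings to the full good Hecke field

An embedding of the values of `g`'s character away from `S` into a complete DVR extends, after a
finite extension of the DVR, to the values of its character away from the primes of the level.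
-/

set_option autoImplicit false

noncomputable section

namespace Fermat.Agent.CarayolReduction

open HeckeDatum CongruenceSubgroup ModularFormClass

/-- A ring homomorphism from an integral extension of `ℤ` inside a field to a ring of
characteristic zero is injective. -/
theorem injective_of_isIntegral {R A : Type*} [CommRing R] [IsDomain R] [CommRing A] [IsDomain A]
    [CharZero A] [Algebra.IsIntegral ℤ R] (f : R →+* A) : Function.Injective f := by
  rw [RingHom.injective_iff_ker_eq_bot]
  refine Ideal.eq_bot_of_comap_eq_bot (R := ℤ) (le_bot_iff.mp fun a ha => ?_)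
  rw [Ideal.mem_comap, RingHom.mem_ker, eq_intCast, map_intCast, Int.cast_eq_zero] at ha
  exact ha

variable {M : ℕ} [NeZero M] {g : CuspForm (Gamma0 M) 2}

/-- The values of a character of a Hecke algebra form a finite `ℤ`-module. -/
theorem moduleFinite_range {S : Set ℕ} (χ : CuspForm.heckeAlgebra M 2 S →+* ℂ) :
    Module.Finite ℤ χ.range := by
  have := EichlerPeriods.moduleFinite_heckeAlgebra (N := M) 2 S
  exact Module.Finite.of_surjective χ.rangeRestrict.toIntAlgHom.toLinearMap
    χ.rangeRestrict_surjective

/-- An embedding of the eigenvalues away from `S` extends, after a finite extension of the DVR, to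
an embedding of all eigenvalues away from the primes dividing the level. -/
theorem exists_extension (hg : g.IsNormalizedEigenform) {S : Finset ℕ}
    (hMS : ∀ q : ℕ, q.Prime → q ∣ M → q ∈ S)
    (chig : CuspForm.heckeAlgebra M 2 (↑S : Set ℕ) →+* ℂ)
    (hchig : ∀ (l : ℕ) (hl : l.Prime) (hlM : ¬ l ∣ M) (hlS : l ∉ (↑S : Set ℕ)),
      chig (CuspForm.heckeAlgebra.T hl hlM hlS) = qCoeff g l)
    (O' : Type) [CommRing O'] [IsDomain O'] [IsDiscreteValuationRing O']
    [IsAdicComplete (IsLocalRing.maximalIdeal O') O'] [Finite (IsLocalRing.ResidueField O')]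
    [CharZero O'] (iota : chig.range →+* O') :
    ∃ (O'' : Type) (_ : CommRing O'') (_ : IsDomain O'') (_ : IsDiscreteValuationRing O'')
      (_ : IsAdicComplete (IsLocalRing.maximalIdeal O'') O'')
      (_ : Finite (IsLocalRing.ResidueField O'')) (_ : CharZero O'') (_ : Algebra O' O'')
      (_ : Module.Finite O' O'') (_ : IsLocalHom (algebraMap O' O'')),
      Function.Injective (algebraMap O' O'') ∧
      ∃ c : (HeckeEigen.eigenChar hg (badSet M)).range →+* O'', Function.Injective c ∧
        ∀ (l : ℕ) (hl : l.Prime) (hlM : ¬ l ∣ M) (hlS : l ∉ (↑S : Set ℕ)),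
          c ((HeckeEigen.eigenChar hg (badSet M)).rangeRestrict
              (CuspForm.heckeAlgebra.T hl hlM (not_mem_badSet hlM))) =
            algebraMap O' O'' ((iota.comp chig.rangeRestrict)
              (CuspForm.heckeAlgebra.T hl hlM hlS)) := by
  classical
  let χ := HeckeEigen.eigenChar hg (badSet M)
  have hsub : badSet M ⊆ (↑S : Set ℕ) := fun q hq => hMS q hq.1 hq.2
  let incl : CuspForm.heckeAlgebra M 2 (↑S : Set ℕ) →+* CuspForm.heckeAlgebra M 2 (badSet M) :=
    (Subalgebra.inclusion (CuspForm.heckeAlgebra_mono hsub)).toRingHom
  have hcomp : chig = χ.comp incl := by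
    have h0 : chig.comp (evalForms hMS) = (χ.comp incl).comp (evalForms hMS) := by
      refine MvPolynomial.ringHom_ext (fun a => ?_) fun i => ?_
      · rw [show (MvPolynomial.C a : AwayPoly (↑S : Set ℕ)) = (a : AwayPoly (↑S : Set ℕ)) from
          (map_intCast MvPolynomial.C a), map_intCast, map_intCast]
      · have hiM : ¬ (i.1 : ℕ) ∣ M := fun h => i.2 (hMS _ i.1.2 h)
        rw [RingHom.comp_apply, RingHom.comp_apply, evalForms_X, hchig]
        exact (HeckeEigen.eigenChar_T hg i.1.2 hiM (not_mem_badSet hiM)).symm
    refine RingHom.ext fun t => ?_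
    obtain ⟨P, rfl⟩ := evalForms_surjective hMS t
    exact RingHom.congr_fun h0 P
  have hle : chig.range ≤ χ.range := by
    rintro _ ⟨t, rfl⟩
    exact ⟨incl t, (RingHom.congr_fun hcomp t).symm⟩
  have := moduleFinite_range chig
  have := moduleFinite_range χ
  have : Algebra.IsIntegral ℤ chig.range := Algebra.IsIntegral.of_finite ℤ _
  have : Algebra.IsIntegral ℤ χ.range := Algebra.IsIntegral.of_finite ℤ _
  have hiota : Function.Injective iota := injective_of_isIntegral iota
  let K := FractionRing O'
  let Ω := AlgebraicClosure K
  let : Algebra chig.range χ.range := (Subring.inclusion hle).toAlgebra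
  let : Algebra chig.range Ω := ((algebraMap O' Ω).comp iota).toAlgebra
  have hO'Ω : Function.Injective (algebraMap O' Ω) := by
    rw [IsScalarTower.algebraMap_eq O' K Ω]
    exact (algebraMap K Ω).injective.comp (IsFractionRing.injective O' K)
  have : FaithfulSMul chig.range χ.range :=
    (faithfulSMul_iff_algebraMap_injective _ _).mpr (Subring.inclusion_injective hle)
  have : FaithfulSMul chig.range Ω :=
    (faithfulSMul_iff_algebraMap_injective _ _).mpr (hO'Ω.comp hiota)
  have : Algebra.IsAlgebraic chig.range χ.range := ⟨fun x =>
    ((Algebra.IsIntegral.isIntegral (R := ℤ) x).tower_top).isAlgebraic⟩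
  let e : χ.range →ₐ[chig.range] Ω := IsAlgClosed.lift
  obtain ⟨s, hs⟩ := Module.Finite.fg_top (R := ℤ) (M := χ.range)
  let L : IntermediateField K Ω := IntermediateField.adjoin K (e '' (s : Set χ.range))
  have hfin : FiniteDimensional K L := by
    have : Finite (e '' (s : Set χ.range)) := (s.finite_toSet.image e).to_subtype
    exact IntermediateField.finiteDimensional_adjoin fun x _ => Algebra.IsIntegral.isIntegral x
  have hmem : ∀ x : χ.range, e x ∈ L := by
    intro x
    have hx : x ∈ Submodule.span ℤ (s : Set χ.range) := by rw [hs]; exact Submodule.mem_top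
    induction hx using Submodule.span_induction with
    | mem y hy => exact IntermediateField.subset_adjoin K _ ⟨y, hy, rfl⟩
    | zero => rw [map_zero]; exact zero_mem L
    | add y z _ _ hy hz => rw [map_add]; exact add_mem hy hz
    | smul a y _ hy => rw [map_zsmul]; exact zsmul_mem hy a
  have : CharZero K := charZero_of_injective_algebraMap (IsFractionRing.injective O' K)
  have : Algebra.IsSeparable K L := Algebra.IsAlgebraic.isSeparable_of_perfectField
  obtain ⟨hdvr, hcompl, hfinite, hloc, hinj, -, hres⟩ :=
    HeckeAlg.exists_completeDVR_integralClosure O' K L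
  let eL : χ.range →+* L := e.toRingHom.codRestrict L hmem
  have hint : ∀ x : χ.range, eL x ∈ integralClosure O' L := fun x => by
    have : IsIntegral ℤ (eL x) := (Algebra.IsIntegral.isIntegral (R := ℤ) x).map eL.toIntAlgHom
    exact this.tower_top
  have hchar : CharZero (integralClosure O' L) := charZero_of_injective_algebraMap hinj
  refine ⟨integralClosure O' L, inferInstance, inferInstance, hdvr, hcompl,
    hres inferInstance, hchar, inferInstance, hfinite, hloc, hinj,
    eL.codRestrict (integralClosure O' L) hint, ?_, ?_⟩
  · intro x y hxy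
    have : e x = e y := congrArg (fun z : integralClosure O' L => ((z : L) : Ω)) hxy
    have he : Function.Injective e := injective_of_isIntegral (A := Ω) e.toRingHom
    exact he this
  · intro l hl hlM hlS
    refine Subtype.ext (Subtype.ext ?_)
    have h1 : χ.rangeRestrict (CuspForm.heckeAlgebra.T hl hlM (not_mem_badSet hlM)) =
        algebraMap chig.range χ.range
          (chig.rangeRestrict (CuspForm.heckeAlgebra.T hl hlM hlS)) := by
      refine Subtype.ext ?_
      show χ _ = chig _
      rw [hchig]
      exact HeckeEigen.eigenChar_T hg hl hlM (not_mem_badSet hlM)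
    show e (χ.rangeRestrict _) = _
    rw [h1, e.commutes]
    rfl

end Fermat.Agent.CarayolReduction
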