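import Fermat.Agent.CarayolReduction.Core
import Fermat.Agent.HeckeCommute
import Fermat.Agent.JacCompare.Faithful

/-!
# The lower level inputs from the finite level theorem

Commutativity of the Hecke operators and their factorisation through the Hecke algebra are known
at every level, so `LevelInputs M lam` follows from the finite level theorem alone.
-/

set_option autoImplicit false

noncomputable section

open ModularCurve

namespace Fermat.Agent.CarayolReduction

variable {M : ℕ} [NeZero M] {lam : ℕ}

/-- `LevelInputs` follows from the core statements. -/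
theorem levelInputs_of_core (hlam : lam.Prime)
    (hcore : ∀ q N₁ : ℕ, q.Prime → q ≠ lam → ¬ q ∣ N₁ → M = q ^ 2 * N₁ →
      Carayol.CoreStatement q N₁ lam) :
    LevelInputs M lam :=
  levelInputs_of_coreStatement (fun L _ _ => HeckeCommute.heckeOperatorsCommuteBar L)
    (fun L _ _ => torsionFactors_of_jacobianFaithful
      (JacCompare.jacobianFaithful _ hlam (HeckeCommute.heckeOperatorsCommuteBar L)))
    hcore

/-- The core statement follows from the finite level theorem at the rigidified levels. -/
theorem coreStatement_of_forall_finiteLevel (hlam : lam.Prime)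
    (hfin : ∀ (q N' : ℕ) [NeZero q] [NeZero N'], q.Prime → q ≠ lam → ¬ q ∣ N' →
      (q = 2 ∧ 9 ∣ N' ∨ q ≠ 2 ∧ 4 ∣ N') → FiniteLevel q N' lam)
    {q N₁ : ℕ} (hq : q.Prime) (hql : q ≠ lam) (hqN : ¬ q ∣ N₁) :
    Carayol.CoreStatement q N₁ lam :=
  haveI : NeZero q := ⟨hq.ne_zero⟩
  haveI : NeZero N₁ := ⟨fun h => hqN (h ▸ dvd_zero q)⟩
  coreStatement_of_finiteLevel_rigid hq hqN hlam.ne_zero
    fun N' _ hqN' h4 => hfin q N' hq hql hqN' h4

/-- `LevelInputs` follows from the finite level theorem. -/
theorem levelInputs_of_finiteLevel (hlam : lam.Prime)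
    (hfin : ∀ (q N' : ℕ) [NeZero q] [NeZero N'], q.Prime → q ≠ lam → ¬ q ∣ N' →
      (q = 2 ∧ 9 ∣ N' ∨ q ≠ 2 ∧ 4 ∣ N') → FiniteLevel q N' lam) :
    LevelInputs M lam :=
  levelInputs_of_core hlam fun _ _ hq hql hqN _ =>
    coreStatement_of_forall_finiteLevel hlam hfin hq hql hqN

end Fermat.Agent.CarayolReduction
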