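import Fermat.Agent.CarayolReduction.Degeneracy
import Fermat.Agent.CarayolReduction.DivisorBaseChange
import Fermat.Prelude.Def_ModularCurve_HeckeModule

/-!
# The two pushforwards `J₀(q²N) → J₀(qN)` and their commutation with `T_ℓ`

`pushPic φ` is the pushforward of divisor classes along a map of function fields; if it kills the
class of a `D` with `n • D = div f`, the norm of `f` is a constant times an `n`-th power. For the
two degeneracy maps it commutes with the good Hecke operators, by base change.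
-/

set_option autoImplicit false

noncomputable section

open AlgebraicCurve ModularCurve

namespace Fermat.Agent.CarayolReduction

local notation "Qb" => AlgebraicClosure ℚ

/-- A function without zeros and poles is constant. -/
theorem exists_const_of_forall_ord_eq_zero {K F : Type*} [Field K] [IsAlgClosed K] [Field F]
    [Algebra K F] [FunctionField.IsFunctionField K F] {f : F}
    (h : ∀ v : Place K F, v.ord f = 0) : ∃ c : K, algebraMap K F c = f := by
  by_cases hf : IsAlgebraic K f
  · have hi : IsIntegral K f := isAlgebraic_iff_isIntegral.mp hf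
    exact minpoly.mem_range_of_degree_eq_one K f
      (IsAlgClosed.degree_eq_one_of_irreducible K (minpoly.irreducible hi))
  · obtain ⟨v, hv⟩ := FunctionField.exists_place_ord_pos hf
    exact absurd (h v) hv.ne'

section PushPic

variable {N M : ℕ} [NeZero N] [NeZero M]
variable (φ : modularFunctionFieldBar N →ₐ[Qb] modularFunctionFieldBar M)

/-- Pushforward of degree zero divisors. -/
def pushDeg0 : Divisor.degZero (K := Qb) (F := modularFunctionFieldBar M) →+
    Divisor.degZero (K := Qb) (F := modularFunctionFieldBar N) :=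
  ((Divisor.pushforwardAlong φ (Hecke.isIntegral_of_isFunctionField φ)).domRestrict
    (Divisor.degZero (K := Qb) (F := modularFunctionFieldBar M))).codRestrict _
    fun D => Divisor.pushforwardAlong_mem_degZero φ (Hecke.isIntegral_of_isFunctionField φ) D.2

/-- Pushforward of divisor classes. -/
def pushPic : JZero M →+ JZero N :=
  QuotientAddGroup.map _ _ (pushDeg0 φ) (by
    rintro ⟨D, hD0⟩ hD
    simp only [AddSubgroup.mem_addSubgroupOf] at hD ⊢
    show (pushDeg0 φ ⟨D, hD0⟩ : Divisor Qb (modularFunctionFieldBar N)) ∈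
      Divisor.principal (K := Qb) (F := modularFunctionFieldBar N)
    exact Divisor.isPrincipal_pushforwardAlong φ (Hecke.isIntegral_of_isFunctionField φ)
      (Hecke.finiteAlong_of_isFunctionField φ)
      (Hecke.normFormulaAlong φ (Hecke.finiteAlong_of_isFunctionField φ)) hD)

/-- The pushforward of the class of a divisor is the class of its pushforward. -/
theorem pushPic_mk (D : Divisor.degZero (K := Qb) (F := modularFunctionFieldBar M)) :
    pushPic φ (Pic0.mk D) = Pic0.mk (pushDeg0 φ D) := rfl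

/-- If `n • D` is the divisor of `f` and the pushforward of the class of `D` vanishes, then the
norm of `f` is a constant times an `n`-th power. -/
theorem norm_eq_of_pushPic_eq_zero {n : ℕ}
    (D : Divisor.degZero (K := Qb) (F := modularFunctionFieldBar M))
    (hx : pushPic φ (Pic0.mk D) = 0) {f : modularFunctionFieldBar M} (hf : f ≠ 0)
    (hD : ∀ v : Place Qb (modularFunctionFieldBar M),
      (n : ℤ) * (D : Divisor Qb (modularFunctionFieldBar M)) v = v.ord f) :
    ∃ (c : Qb) (g : modularFunctionFieldBar N),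
      g ≠ 0 ∧ c ≠ 0 ∧ nmAlong φ f = algebraMap Qb _ c * g ^ n := by
  rw [pushPic_mk] at hx
  have hx' : (pushDeg0 φ D : Divisor Qb (modularFunctionFieldBar N)) ∈
      Divisor.principal (K := Qb) (F := modularFunctionFieldBar N) :=
    AddSubgroup.mem_addSubgroupOf.mp ((QuotientAddGroup.eq_zero_iff (pushDeg0 φ D)).mp hx)
  obtain ⟨g, hg, hgv⟩ := hx'
  have hn0 : nmAlong φ f ≠ 0 := nmAlong_ne_zero (Hecke.finiteAlong_of_isFunctionField φ) hf
  have hnD : ∀ w : Place Qb (modularFunctionFieldBar M),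
      (n • (D : Divisor Qb (modularFunctionFieldBar M))) w = w.ord f := fun w => by
    rw [Finsupp.smul_apply, nsmul_eq_mul, hD]
  have key : ∀ v : Place Qb (modularFunctionFieldBar N), v.ord (nmAlong φ f / g ^ n) = 0 := by
    intro v
    have h1 := pushforwardAlong_div φ (Hecke.isIntegral_of_isFunctionField φ) hf hnD v
    rw [map_nsmul, Finsupp.smul_apply] at h1
    rw [div_eq_mul_inv, v.ord_mul hn0 (inv_ne_zero (pow_ne_zero n hg)), v.ord_inv,
      FunctionField.ord_pow, ← h1]
    have h2 : Divisor.pushforwardAlong φ (Hecke.isIntegral_of_isFunctionField φ)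
        (D : Divisor Qb (modularFunctionFieldBar M)) v = v.ord g := hgv v
    rw [h2, nsmul_eq_mul, add_neg_cancel]
  have hne : nmAlong φ f / g ^ n ≠ 0 := div_ne_zero hn0 (pow_ne_zero n hg)
  obtain ⟨c, hc⟩ := exists_const_of_forall_ord_eq_zero key
  refine ⟨c, g, hg, fun h0 => hne (by rw [← hc, h0, map_zero]), ?_⟩
  rw [hc, div_mul_cancel₀ _ (pow_ne_zero n hg)]

end PushPic

/-- An extension of prime degree is generated by any element outside the smaller field. -/
theorem adjoin_eq_top_of_prime {K E E' : Type*} [Field K] [Field E] [Field E'] [Algebra K E]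
    [Algebra K E'] (ψ : E →ₐ[K] E') {p : ℕ} (hp : p.Prime) (hdeg : finrankAlong K ψ = p)
    {x : E'} (hx : x ∉ ψ.fieldRange) {S : Set E'} (hS : x ∈ S) :
    IntermediateField.adjoin K (S ∪ Set.range ψ) = ⊤ := by
  let := algebraAlong ψ
  have := isScalarTower_along ψ
  have : IsSimpleOrder (IntermediateField E E') :=
    IntermediateField.isSimpleOrder_of_finrank_prime E E' (hdeg.symm ▸ hp :)
  set C := IntermediateField.adjoin K (S ∪ Set.range ψ)
  let C' : IntermediateField E E' :=
    { C.toSubfield with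
      algebraMap_mem' := fun e => IntermediateField.subset_adjoin K _ (Or.inr ⟨e, rfl⟩) }
  have hxC : x ∈ C' := IntermediateField.subset_adjoin K _ (Or.inl hS)
  rcases eq_bot_or_eq_top C' with h | h
  · exfalso
    rw [h, IntermediateField.mem_bot] at hxC
    exact hx hxC
  · exact top_unique fun y _ => show y ∈ C' by rw [h]; trivial

variable {q N L M : ℕ} [NeZero q] [NeZero N] [NeZero L] [NeZero M]

/-- The pushforward along either degeneracy map commutes with the good Hecke operators. -/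
theorem pushPic_hecke (hq : q.Prime) (hqN : ¬ q ∣ N) (hL : L = q * N) (hM : M = q ^ 2 * N)
    (d : ℕ) [NeZero d] (hd : d = 1 ∨ d = q) (h : L * d ∣ M) (ℓ : Nat.Primes)
    (hℓ : ¬ (ℓ : ℕ) ∣ M) (x : JZero M) :
    pushPic (dilHom L M d h) (heckeOperatorBar M ℓ x) =
      heckeOperatorBar L ℓ (pushPic (dilHom L M d h) x) := by
  have : NeZero (ℓ : ℕ) := ⟨ℓ.2.ne_zero⟩
  obtain ⟨hαM, hβM, _, hfM, hFIM, hNM, eM⟩ := Hecke.heckeOperatorAlong_eq_pic0 Qb M (ℓ : ℕ)
  obtain ⟨hαL, hβL, _, hfL, hFIL, hNL, eL⟩ := Hecke.heckeOperatorAlong_eq_pic0 Qb L (ℓ : ℕ)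
  rw [heckeOperatorBar_apply, heckeOperatorBar_apply, eM, eL]
  obtain ⟨⟨D, hD0⟩, rfl⟩ := Pic0.mk_surjective x
  refine congrArg Pic0.mk (Subtype.ext ?_)
  set φ := dilHom L M d h with hφdef
  have h' : L * (ℓ : ℕ) * d ∣ M * (ℓ : ℕ) := by
    rw [mul_right_comm]; exact mul_dvd_mul_right h _
  set ψ := dilHom (L * (ℓ : ℕ)) (M * (ℓ : ℕ)) d h'
  set αM := heckeAlphaBar Qb M (ℓ : ℕ)
  set αL := heckeAlphaBar Qb L (ℓ : ℕ)
  set βM := heckeBetaBar Qb M (ℓ : ℕ)
  set βL := heckeBetaBar Qb L (ℓ : ℕ)
  have hφi := Hecke.isIntegral_of_isFunctionField φ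
  have hψi := Hecke.isIntegral_of_isFunctionField ψ
  have hθi : (αM.comp φ).toRingHom.IsIntegral := Hecke.isIntegral_of_isFunctionField _
  show Divisor.pushforwardAlong φ hφi
      (Divisor.pushforwardAlong αM hαM (Divisor.pullbackAlong βM hβM D)) =
    Divisor.pushforwardAlong αL hαL (Divisor.pullbackAlong βL hβL
      (Divisor.pushforwardAlong φ hφi D))
  have hcommα : ∀ y, αM (φ y) = ψ (αL y) := fun y => Subtype.ext <| by
    rw [coe_heckeAlphaBar, coe_dilHom, coe_dilHom, coe_heckeAlphaBar]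
  rw [pushforwardAlong_comp (αM.comp φ) hφi hαM hθi (fun _ => rfl),
    ← pushforwardAlong_comp (αM.comp φ) hαL hψi hθi (fun y => hcommα y)]
  refine congrArg (Divisor.pushforwardAlong αL hαL) ?_
  have hqℓ : q ≠ (ℓ : ℕ) := fun e => hℓ (by rw [hM, ← e]; exact Dvd.intro (q * N) (by ring))
  have hqNℓ : ¬ q ∣ N * (ℓ : ℕ) := fun e => (hq.dvd_mul.mp e).elim hqN fun e' =>
    hqℓ ((Nat.prime_dvd_prime_iff_eq hq ℓ.2).mp e')
  have hLℓ : L * (ℓ : ℕ) = q * (N * (ℓ : ℕ)) := by rw [hL, mul_assoc]
  have hMℓ : M * (ℓ : ℕ) = q ^ 2 * (N * (ℓ : ℕ)) := by rw [hM, mul_assoc]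
  have hdeg : finrankAlong Qb φ = q ∧ finrankAlong Qb ψ = q := by
    rcases hd with rfl | rfl
    · exact ⟨finrank_dilHom_one hq hqN hL hM h, finrank_dilHom_one hq hqNℓ hLℓ hMℓ h'⟩
    · exact ⟨finrank_dilHom_q hq hqN hL hM h, finrank_dilHom_q hq hqNℓ hLℓ hMℓ h'⟩
  have hgen : IntermediateField.adjoin Qb (Set.range βM ∪ Set.range ψ) = ⊤ := by
    rcases hd with rfl | rfl
    · have hmem : qExpand Qb (q ^ 2) (jqModC Qb) ∈ modularFunctionFieldBar M :=
        Hecke.qExpand_jC_mem Qb M (by rw [hM]; exact dvd_mul_right _ _)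
      refine adjoin_eq_top_of_prime ψ hq hdeg.2
        (x := βM ⟨_, hmem⟩) ?_ ⟨_, rfl⟩
      refine not_mem_range_one hq hqNℓ hLℓ hMℓ h' (d := (ℓ : ℕ)) (dvd_mul_left _ _) _ ?_
      rw [coe_heckeBetaBar, qExpand_qExpand]
    · have hmem : qExpand Qb 1 (jqModC Qb) ∈ modularFunctionFieldBar M :=
        Hecke.qExpand_jC_mem Qb M (one_dvd _)
      refine adjoin_eq_top_of_prime ψ hq hdeg.2
        (x := βM ⟨_, hmem⟩) ?_ ⟨_, rfl⟩
      refine not_mem_range_q h' (e := (ℓ : ℕ))
        (fun e => hqℓ ((Nat.prime_dvd_prime_iff_eq hq ℓ.2).mp e)) _ ?_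
      rw [coe_heckeBetaBar, qExpand_qExpand]
      exact qExpand_congr (mul_one _) _
  refine pushforwardAlong_pullbackAlong φ ψ βL βM (fun y => Subtype.ext ?_)
    (hdeg.1.trans hdeg.2.symm) hgen hφi hψi hβL hβM D
  show qExpand Qb (ℓ : ℕ) (qExpand Qb d (y : LaurentSeries Qb)) =
    qExpand Qb d (qExpand Qb (ℓ : ℕ) (y : LaurentSeries Qb))
  rw [qExpand_qExpand, qExpand_qExpand]
  exact qExpand_congr (mul_comm _ _) _

end Fermat.Agent.CarayolReduction
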